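import Mathlib.Data.Real.Basic
import Mathlib.Tactic
import Mathlib.Algebra.Field.Basic

set_option autoImplicit false

namespace Fermat.Agent.H71

/-- A real-valued additive valuation on a field (value at `0` is junk). -/
structure AddVal (K : Type*) [Field K] where
  w : K → ℝ
  map_mul' : ∀ x y : K, x ≠ 0 → y ≠ 0 → w (x * y) = w x + w y
  map_add' : ∀ x y : K, x ≠ 0 → y ≠ 0 → x + y ≠ 0 → min (w x) (w y) ≤ w (x + y)

namespace AddVal

variable {K : Type*} [Field K] (v : AddVal K)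

/-- `v.ge x t` : `x` has valuation at least `t` (with `w 0 = +∞`). -/
def ge (x : K) (t : ℝ) : Prop := x = 0 ∨ t ≤ v.w x

lemma w_mul {x y : K} (hx : x ≠ 0) (hy : y ≠ 0) : v.w (x * y) = v.w x + v.w y :=
  v.map_mul' x y hx hy

lemma w_one : v.w 1 = 0 := by
  have h := v.w_mul (one_ne_zero (α := K)) (one_ne_zero (α := K))
  rw [mul_one] at h
  linarith

lemma w_neg_one : v.w (-1) = 0 := by
  have h := v.w_mul (neg_ne_zero.mpr (one_ne_zero (α := K))) (neg_ne_zero.mpr (one_ne_zero (α := K)))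
  rw [neg_mul_neg, mul_one, v.w_one] at h
  linarith

lemma w_neg (x : K) : v.w (-x) = v.w x := by
  by_cases hx : x = 0
  · simp [hx]
  · have h := v.w_mul (neg_ne_zero.mpr (one_ne_zero (α := K))) hx
    rw [neg_one_mul, v.w_neg_one] at h
    linarith

lemma w_inv {x : K} (hx : x ≠ 0) : v.w x⁻¹ = - v.w x := by
  have h := v.w_mul hx (inv_ne_zero hx)
  rw [mul_inv_cancel₀ hx, v.w_one] at h
  linarith

lemma w_div {x y : K} (hx : x ≠ 0) (hy : y ≠ 0) : v.w (x / y) = v.w x - v.w y := by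
  rw [div_eq_mul_inv, v.w_mul hx (inv_ne_zero hy), v.w_inv hy]
  ring

lemma w_pow {x : K} (hx : x ≠ 0) (n : ℕ) : v.w (x ^ n) = n * v.w x := by
  induction n with
  | zero => simp [v.w_one]
  | succ n ih =>
    rw [pow_succ, v.w_mul (pow_ne_zero n hx) hx, ih]
    push_cast
    ring

lemma w_zpow {x : K} (hx : x ≠ 0) (n : ℤ) : v.w (x ^ n) = n * v.w x := by
  cases n with
  | ofNat n => simpa using v.w_pow hx n
  | negSucc n =>
    rw [zpow_negSucc, v.w_inv (pow_ne_zero _ hx), v.w_pow hx]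
    push_cast
    ring

lemma w_add {x y : K} (hx : x ≠ 0) (hy : y ≠ 0) (hxy : x + y ≠ 0) :
    min (v.w x) (v.w y) ≤ v.w (x + y) :=
  v.map_add' x y hx hy hxy

/-- strict ultrametric: if `w x < w y` then `w (x + y) = w x`. -/
lemma w_add_eq_left {x y : K} (hx : x ≠ 0) (hy : y ≠ 0) (h : v.w x < v.w y) :
    x + y ≠ 0 ∧ v.w (x + y) = v.w x := by
  have hxy : x + y ≠ 0 := by
    intro h0
    have : x = -y := eq_neg_of_add_eq_zero_left h0
    rw [this, v.w_neg] at h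
    exact lt_irrefl _ h
  refine ⟨hxy, le_antisymm ?_ ?_⟩
  · -- x = (x + y) + (-y)
    by_contra hlt
    rw [not_le] at hlt
    have h1 := v.w_add hxy (neg_ne_zero.mpr hy) (by simpa using hx)
    rw [v.w_neg, add_neg_cancel_right] at h1
    have : v.w x < min (v.w (x + y)) (v.w y) := lt_min hlt h
    linarith
  · have h1 := v.w_add hx hy hxy
    rwa [min_eq_left h.le] at h1

lemma ge_zero' (t : ℝ) : v.ge 0 t := Or.inl rfl

lemma ge_of_w {x : K} {t : ℝ} (h : t ≤ v.w x) : v.ge x t := Or.inr h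

lemma ge.mono {x : K} {t s : ℝ} (h : v.ge x t) (hst : s ≤ t) : v.ge x s := by
  rcases h with h | h
  · exact Or.inl h
  · exact Or.inr (hst.trans h)

lemma ge.w_le {x : K} {t : ℝ} (h : v.ge x t) (hx : x ≠ 0) : t ≤ v.w x := by
  rcases h with h | h
  · exact absurd h hx
  · exact h

lemma ge.neg {x : K} {t : ℝ} (h : v.ge x t) : v.ge (-x) t := by
  rcases h with h | h
  · exact Or.inl (by simp [h])
  · exact Or.inr (by rwa [v.w_neg])

lemma ge.mul {x y : K} {s t : ℝ} (hx : v.ge x s) (hy : v.ge y t) : v.ge (x * y) (s + t) := by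
  rcases hx with hx | hx
  · exact Or.inl (by simp [hx])
  rcases hy with hy | hy
  · exact Or.inl (by simp [hy])
  by_cases hx0 : x = 0
  · exact Or.inl (by simp [hx0])
  by_cases hy0 : y = 0
  · exact Or.inl (by simp [hy0])
  exact Or.inr (by rw [v.w_mul hx0 hy0]; linarith)

lemma ge.add {x y : K} {t : ℝ} (hx : v.ge x t) (hy : v.ge y t) : v.ge (x + y) t := by
  by_cases hx0 : x = 0
  · simpa [hx0] using hy
  by_cases hy0 : y = 0
  · simpa [hy0] using hx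
  by_cases hxy : x + y = 0
  · exact Or.inl hxy
  have h := v.w_add hx0 hy0 hxy
  exact Or.inr (le_trans (le_min (hx.w_le v hx0) (hy.w_le v hy0)) h)

lemma ge.sub {x y : K} {t : ℝ} (hx : v.ge x t) (hy : v.ge y t) : v.ge (x - y) t := by
  rw [sub_eq_add_neg]
  exact hx.add v (hy.neg v)

lemma ge.pow {x : K} {t : ℝ} (hx : v.ge x t) (n : ℕ) : v.ge (x ^ n) (n * t) := by
  induction n with
  | zero => exact Or.inr (by simp [v.w_one])
  | succ n ih =>
    rw [pow_succ]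
    have := ih.mul v hx
    refine this.mono v ?_
    push_cast
    linarith

/-- If `w x = s < t` and `y ≽ t` then `x + y ≠ 0` and `w (x + y) = s`. -/
lemma w_add_of_lt {x y : K} {t : ℝ} (hx : x ≠ 0) (hy : v.ge y t) (h : v.w x < t) :
    x + y ≠ 0 ∧ v.w (x + y) = v.w x := by
  by_cases hy0 : y = 0
  · subst hy0
    simp [hx]
  · exact v.w_add_eq_left hx hy0 (lt_of_lt_of_le h (hy.w_le v hy0))

lemma w_add_of_lt' {x y : K} {t : ℝ} (hx : x ≠ 0) (hy : v.ge y t) (h : v.w x < t) :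
    y + x ≠ 0 ∧ v.w (y + x) = v.w x := by
  rw [add_comm]
  exact v.w_add_of_lt hx hy h

lemma w_sub_of_lt {x y : K} {t : ℝ} (hx : x ≠ 0) (hy : v.ge y t) (h : v.w x < t) :
    x - y ≠ 0 ∧ v.w (x - y) = v.w x := by
  rw [sub_eq_add_neg]
  exact v.w_add_of_lt hx (hy.neg v) h

lemma w_sub_of_lt' {x y : K} {t : ℝ} (hx : x ≠ 0) (hy : v.ge y t) (h : v.w x < t) :
    y - x ≠ 0 ∧ v.w (y - x) = v.w x := by
  have := v.w_sub_of_lt hx hy h
  refine ⟨fun h0 => this.1 (by rw [← neg_sub, h0, neg_zero]), ?_⟩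
  rw [← neg_sub, v.w_neg]
  exact this.2

lemma ge_of_eq {x : K} {t : ℝ} (h : v.w x = t) : v.ge x t := Or.inr h.ge

lemma ge_iff_of_ne {x : K} {t : ℝ} (hx : x ≠ 0) : v.ge x t ↔ t ≤ v.w x :=
  ⟨fun h => h.w_le v hx, fun h => Or.inr h⟩

/-! ### Two roots with prescribed sum and product -/

/-- Lemma A: if the product is `≽ 2t` and the sum is `≽ t` then both roots are `≽ t`. -/
lemma roots_ge {z₁ z₂ : K} {t : ℝ} (hP : v.ge (z₁ * z₂) (2 * t)) (hS : v.ge (z₁ + z₂) t) :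
    v.ge z₁ t ∧ v.ge z₂ t := by
  have key : ∀ a b : K, v.ge (a * b) (2 * t) → v.ge (a + b) t → v.ge a t := by
    intro a b hP hS
    by_contra hcon
    have ha0 : a ≠ 0 := fun h => hcon (Or.inl h)
    have hat : v.w a < t := by
      by_contra h
      exact hcon (Or.inr (not_lt.mp h))
    by_cases hb0 : b = 0
    · subst hb0
      rw [add_zero] at hS
      exact absurd (hS.w_le v ha0) (not_le.mpr hat)
    · have h1 := hP.w_le v (mul_ne_zero ha0 hb0)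
      rw [v.w_mul ha0 hb0] at h1
      have hlt : v.w a < v.w b := by linarith
      obtain ⟨hne, heq⟩ := v.w_add_eq_left ha0 hb0 hlt
      have := hS.w_le v hne
      linarith
  exact ⟨key z₁ z₂ hP hS, key z₂ z₁ (by rwa [mul_comm]) (by rwa [add_comm])⟩

/-- Lemma B: if the product has valuation exactly `2t` and the sum is `≽ t` then both roots have
valuation exactly `t`. -/
lemma roots_eq {z₁ z₂ : K} {t : ℝ} (hP0 : z₁ * z₂ ≠ 0) (hP : v.w (z₁ * z₂) = 2 * t)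
    (hS : v.ge (z₁ + z₂) t) :
    (z₁ ≠ 0 ∧ v.w z₁ = t) ∧ (z₂ ≠ 0 ∧ v.w z₂ = t) := by
  have h1 : z₁ ≠ 0 := left_ne_zero_of_mul hP0
  have h2 : z₂ ≠ 0 := right_ne_zero_of_mul hP0
  obtain ⟨g1, g2⟩ := v.roots_ge (v.ge_of_eq hP) hS
  have e := v.w_mul h1 h2
  have a1 := g1.w_le v h1
  have a2 := g2.w_le v h2
  exact ⟨⟨h1, by linarith⟩, ⟨h2, by linarith⟩⟩

/-- Lemma C: if the sum has valuation exactly `s`, `s < r` and the product is `≽ s + r`, then one
root has valuation exactly `s` and the other is `≽ r`. -/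
lemma roots_split {z₁ z₂ : K} {s r : ℝ} (hS0 : z₁ + z₂ ≠ 0) (hS : v.w (z₁ + z₂) = s)
    (hsr : s < r) (hP : v.ge (z₁ * z₂) (s + r)) :
    (z₁ ≠ 0 ∧ v.w z₁ = s ∧ v.ge z₂ r) ∨ (z₂ ≠ 0 ∧ v.w z₂ = s ∧ v.ge z₁ r) := by
  by_cases h1 : z₁ = 0
  · subst h1
    rw [zero_add] at hS hS0
    exact Or.inr ⟨hS0, hS, Or.inl rfl⟩
  by_cases h2 : z₂ = 0
  · subst h2
    rw [add_zero] at hS hS0
    exact Or.inl ⟨hS0, hS, Or.inl rfl⟩
  have hp := hP.w_le v (mul_ne_zero h1 h2)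
  rw [v.w_mul h1 h2] at hp
  have hmin := v.w_add h1 h2 hS0
  rw [hS] at hmin
  rcases min_le_iff.mp hmin with h | h
  · -- w z₁ ≤ s
    have hlt : v.w z₁ < v.w z₂ := by linarith
    obtain ⟨_, heq⟩ := v.w_add_eq_left h1 h2 hlt
    rw [hS] at heq
    exact Or.inl ⟨h1, heq.symm, Or.inr (by linarith)⟩
  · have hlt : v.w z₂ < v.w z₁ := by linarith
    obtain ⟨_, heq⟩ := v.w_add_eq_left h2 h1 hlt
    rw [add_comm, hS] at heq
    exact Or.inr ⟨h2, heq.symm, Or.inr (by linarith)⟩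

/-- Lemma C': exact version. -/
lemma roots_split_exact {z₁ z₂ : K} {s r : ℝ} (hS0 : z₁ + z₂ ≠ 0) (hS : v.w (z₁ + z₂) = s)
    (hsr : s < r) (hP0 : z₁ * z₂ ≠ 0) (hP : v.w (z₁ * z₂) = s + r) :
    (z₁ ≠ 0 ∧ v.w z₁ = s ∧ z₂ ≠ 0 ∧ v.w z₂ = r) ∨
      (z₂ ≠ 0 ∧ v.w z₂ = s ∧ z₁ ≠ 0 ∧ v.w z₁ = r) := by
  have h1 : z₁ ≠ 0 := left_ne_zero_of_mul hP0
  have h2 : z₂ ≠ 0 := right_ne_zero_of_mul hP0
  have e := v.w_mul h1 h2
  rcases v.roots_split hS0 hS hsr (v.ge_of_eq hP) with ⟨_, a, _⟩ | ⟨_, a, _⟩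
  · exact Or.inl ⟨h1, a, h2, by linarith⟩
  · exact Or.inr ⟨h2, a, h1, by linarith⟩

/-- Lemma D: if the product has valuation `2t ≤ 0` and the sum is `≽ 2t`, both roots have
valuation `≤ 0`. -/
lemma roots_le_zero {z₁ z₂ : K} {t : ℝ} (hP0 : z₁ * z₂ ≠ 0) (hP : v.w (z₁ * z₂) = 2 * t)
    (ht : t ≤ 0) (hS : v.ge (z₁ + z₂) (2 * t)) :
    (z₁ ≠ 0 ∧ v.w z₁ ≤ 0) ∧ (z₂ ≠ 0 ∧ v.w z₂ ≤ 0) := by
  have key : ∀ a b : K, a * b ≠ 0 → v.w (a * b) = 2 * t → v.ge (a + b) (2 * t) →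
      (a ≠ 0 ∧ v.w a ≤ 0) := by
    intro a b hP0 hP hS
    have h1 : a ≠ 0 := left_ne_zero_of_mul hP0
    have h2 : b ≠ 0 := right_ne_zero_of_mul hP0
    refine ⟨h1, ?_⟩
    by_contra hcon
    rw [not_le] at hcon
    have e := v.w_mul h1 h2
    have hlt : v.w b < v.w a := by linarith
    obtain ⟨hne, heq⟩ := v.w_add_eq_left h2 h1 hlt
    rw [add_comm] at hne heq
    have := hS.w_le v hne
    linarith
  exact ⟨key z₁ z₂ hP0 hP hS, key z₂ z₁ (by rwa [mul_comm]) (by rwa [mul_comm]) (by rwa [add_comm])⟩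

/-! ### Transfer of valuations through `P * D² = N²` and `S * D² = 2 * M` -/

lemma w_sq {x : K} (hx : x ≠ 0) : v.w (x ^ 2) = 2 * v.w x := by
  have := v.w_pow hx 2
  simpa using this

lemma prod_exact {P D N : K} (hD : D ≠ 0) (h : P * D ^ 2 = N ^ 2) (hN : N ≠ 0) :
    P ≠ 0 ∧ v.w P = 2 * v.w N - 2 * v.w D := by
  have hP : P ≠ 0 := by
    rintro rfl
    rw [zero_mul] at h
    exact pow_ne_zero 2 hN h.symm
  refine ⟨hP, ?_⟩
  have e := congrArg v.w h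
  rw [v.w_mul hP (pow_ne_zero 2 hD), v.w_sq hD, v.w_sq hN] at e
  linarith

lemma prod_ge {P D N : K} {t : ℝ} (hD : D ≠ 0) (h : P * D ^ 2 = N ^ 2) (hN : v.ge N t) :
    v.ge P (2 * t - 2 * v.w D) := by
  by_cases hN0 : N = 0
  · subst hN0
    left
    have : P * D ^ 2 = 0 := by rw [h]; ring
    rcases mul_eq_zero.mp this with h' | h'
    · exact h'
    · exact absurd h' (pow_ne_zero 2 hD)
  · obtain ⟨_, e⟩ := v.prod_exact hD h hN0
    have := hN.w_le v hN0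
    exact Or.inr (by linarith)

lemma sum_exact {S D M : K} (h2 : (2 : K) ≠ 0) (hw2 : v.w 2 = 0) (hD : D ≠ 0)
    (h : S * D ^ 2 = 2 * M) (hM : M ≠ 0) :
    S ≠ 0 ∧ v.w S = v.w M - 2 * v.w D := by
  have hS : S ≠ 0 := by
    rintro rfl
    rw [zero_mul] at h
    exact mul_ne_zero h2 hM h.symm
  refine ⟨hS, ?_⟩
  have e := congrArg v.w h
  rw [v.w_mul hS (pow_ne_zero 2 hD), v.w_sq hD, v.w_mul h2 hM, hw2] at e
  linarith

lemma sum_ge {S D M : K} {t : ℝ} (h2 : (2 : K) ≠ 0) (hw2 : v.w 2 = 0) (hD : D ≠ 0)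
    (h : S * D ^ 2 = 2 * M) (hM : v.ge M t) :
    v.ge S (t - 2 * v.w D) := by
  by_cases hM0 : M = 0
  · subst hM0
    left
    have : S * D ^ 2 = 0 := by rw [h]; ring
    rcases mul_eq_zero.mp this with h' | h'
    · exact h'
    · exact absurd h' (pow_ne_zero 2 hD)
  · obtain ⟨_, e⟩ := v.sum_exact h2 hw2 hD h hM0
    have := hM.w_le v hM0
    exact Or.inr (by linarith)

end AddVal

end Fermat.Agent.H71
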