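import Mathlib.AlgebraicGeometry.EllipticCurve.Affine.Point
import Mathlib.Tactic

set_option autoImplicit false

open WeierstrassCurve WeierstrassCurve.Affine

namespace Fermat.Agent.H71

variable {K : Type*} [Field K]

/-- The curve has the short shape `y² = x³ + a x² + b x`. -/
structure IsShort (W : WeierstrassCurve K) : Prop where
  a₁ : W.a₁ = 0
  a₃ : W.a₃ = 0
  a₆ : W.a₆ = 0

namespace IsShort

variable {W : WeierstrassCurve K} (hW : IsShort W)

include hW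

lemma equation {x y : K} (h : W.toAffine.Equation x y) :
    y ^ 2 = x ^ 3 + W.a₂ * x ^ 2 + W.a₄ * x := by
  have := (WeierstrassCurve.Affine.equation_iff x y).mp h
  rw [hW.a₁, hW.a₃, hW.a₆] at this
  linear_combination this

lemma negY_eq (x y : K) : W.toAffine.negY x y = -y := by
  simp [WeierstrassCurve.Affine.negY, hW.a₁, hW.a₃]

variable [DecidableEq K]

/-- Generic chord: `x₁ ≠ x₂`. The `x`-coordinates `z₊, z₋` of `P₁ + P₂` and `P₁ - P₂` satisfy the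
symmetric identities. -/
lemma add_sub_of_X_ne {x₁ y₁ x₂ y₂ : K} (h₁ : W.toAffine.Nonsingular x₁ y₁)
    (h₂ : W.toAffine.Nonsingular x₂ y₂) (hx : x₁ ≠ x₂) :
    ∃ (zp yp : K) (hp : W.toAffine.Nonsingular zp yp) (zm ym : K)
      (hm : W.toAffine.Nonsingular zm ym),
      Point.some x₁ y₁ h₁ + Point.some x₂ y₂ h₂ = Point.some zp yp hp ∧
      Point.some x₁ y₁ h₁ - Point.some x₂ y₂ h₂ = Point.some zm ym hm ∧
      zp * zm * (x₁ - x₂) ^ 2 = (x₁ * x₂ - W.a₄) ^ 2 ∧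
      (zp + zm) * (x₁ - x₂) ^ 2 =
        2 * ((x₁ + x₂) * (x₁ * x₂ + W.a₄) + 2 * W.a₂ * x₁ * x₂) := by
  have e₁ := hW.equation h₁.1
  have e₂ := hW.equation h₂.1
  have hd : x₁ - x₂ ≠ 0 := sub_ne_zero.mpr hx
  have hadd := Point.add_of_X_ne (h₁ := h₁) (h₂ := h₂) hx
  have hn : W.toAffine.Nonsingular x₂ (W.toAffine.negY x₂ y₂) :=
    (WeierstrassCurve.Affine.nonsingular_neg ..).mpr h₂
  have hsub : Point.some x₁ y₁ h₁ - Point.some x₂ y₂ h₂ =
      Point.some x₁ y₁ h₁ + Point.some x₂ _ hn := by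
    rw [sub_eq_add_neg, Point.neg_some]
  have hsub2 := Point.add_of_X_ne (h₁ := h₁) (h₂ := hn) hx
  refine ⟨_, _, _, _, _, _, hadd, hsub.trans hsub2, ?_, ?_⟩
  · simp only [WeierstrassCurve.Affine.addX, WeierstrassCurve.Affine.slope_of_X_ne hx, hW.a₁,
      hW.negY_eq]
    field_simp
    linear_combination
      (y₁ ^ 2 + (x₁ ^ 3 + W.a₂ * x₁ ^ 2 + W.a₄ * x₁) - 2 * y₂ ^ 2
        - 2 * (W.a₂ + x₁ + x₂) * (x₁ - x₂) ^ 2) * e₁ +
      (y₂ ^ 2 + (x₂ ^ 3 + W.a₂ * x₂ ^ 2 + W.a₄ * x₂) - 2 * (x₁ ^ 3 + W.a₂ * x₁ ^ 2 + W.a₄ * x₁)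
        - 2 * (W.a₂ + x₁ + x₂) * (x₁ - x₂) ^ 2) * e₂
  · simp only [WeierstrassCurve.Affine.addX, WeierstrassCurve.Affine.slope_of_X_ne hx, hW.a₁,
      hW.negY_eq]
    field_simp
    linear_combination 2 * e₁ + 2 * e₂

/-- Doubling a point with `y ≠ 0`. -/
lemma add_self_of_Y_ne_zero (h2 : (2 : K) ≠ 0) {x y : K} (h : W.toAffine.Nonsingular x y)
    (hy : y ≠ 0) :
    ∃ (z yz : K) (hz : W.toAffine.Nonsingular z yz),
      Point.some x y h + Point.some x y h = Point.some z yz hz ∧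
      z * (4 * y ^ 2) = (x ^ 2 - W.a₄) ^ 2 := by
  have e := hW.equation h.1
  have hne : y ≠ W.toAffine.negY x y := by
    rw [hW.negY_eq]
    intro hyy
    have : (2 : K) * y = 0 := by linear_combination hyy
    rcases mul_eq_zero.mp this with h' | h'
    · exact h2 h'
    · exact hy h'
  refine ⟨_, _, _, Point.add_self_of_Y_ne hne, ?_⟩
  simp only [WeierstrassCurve.Affine.addX, WeierstrassCurve.Affine.slope_of_Y_ne rfl hne, hW.a₁,
    hW.negY_eq]
  have h2y : y - -y = 2 * y := by ring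
  rw [h2y]
  have h4 : (4 : K) ≠ 0 := by
    have : (4 : K) = 2 * 2 := by norm_num
    rw [this]
    exact mul_ne_zero h2 h2
  field_simp
  linear_combination (-16 * (W.a₂ + 2 * x)) * e

/-- Doubling a point with `y = 0` gives `0`. -/
lemma add_self_of_Y_eq_zero {x y : K} (h : W.toAffine.Nonsingular x y) (hy : y = 0) :
    Point.some x y h + Point.some x y h = 0 := by
  apply Point.add_self_of_Y_eq
  rw [hW.negY_eq, hy, neg_zero]

omit hW [DecidableEq K] in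
/-- Two affine points with the same `x` are equal or opposite. -/
lemma eq_or_eq_neg_of_X_eq {x₁ y₁ x₂ y₂ : K} (h₁ : W.toAffine.Nonsingular x₁ y₁)
    (h₂ : W.toAffine.Nonsingular x₂ y₂) (hx : x₁ = x₂) :
    Point.some x₁ y₁ h₁ = Point.some x₂ y₂ h₂ ∨ Point.some x₁ y₁ h₁ = -Point.some x₂ y₂ h₂ :=
  Point.X_eq_iff.mp hx

end IsShort

end Fermat.Agent.H71
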