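import Fermat.Agent.H71.Chord
import Fermat.Agent.H71.ShortFormulas

set_option autoImplicit false
set_option linter.unusedSectionVars false

open WeierstrassCurve WeierstrassCurve.Affine

namespace Fermat.Agent.H71

variable {K : Type*} [Field K] [DecidableEq K]

/-- The clipped valuation of the `x`-coordinate of a point (`0` at the origin of the group). -/
noncomputable def alpha (v : AddVal K) (W : WeierstrassCurve K) : W.toAffine.Point → ℝ
  | .zero => 0
  | .some x _ _ => alphaX v W.a₄ x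

section

variable (v : AddVal K) (W : WeierstrassCurve K)

@[simp] lemma alpha_zero : alpha v W (0 : W.toAffine.Point) = 0 := rfl

@[simp] lemma alpha_some {x y : K} (h : W.toAffine.Nonsingular x y) :
    alpha v W (Point.some x y h) = alphaX v W.a₄ x := rfl

lemma alpha_neg (P : W.toAffine.Point) : alpha v W (-P) = alpha v W P := by
  cases P with
  | zero => rfl
  | some x y h => rfl

variable {v W}

lemma alpha_nonneg (hd : NodeData v W.a₂ W.a₄) (P : W.toAffine.Point) : 0 ≤ alpha v W P := by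
  cases P with
  | zero => exact le_rfl
  | some x y h => exact alphaX_nonneg v hd x

lemma alpha_le (hd : NodeData v W.a₂ W.a₄) (P : W.toAffine.Point) : alpha v W P ≤ v.w W.a₄ := by
  cases P with
  | zero => exact hd.w_b.le
  | some x y h => exact alphaX_le v hd x

lemma Fp_zero_left {η a : ℝ} (ha : a ≤ η) : Fp η 0 a = a := by
  unfold Fp; rw [zero_add, min_eq_left (by linarith)]

lemma Fp_zero_right {η a : ℝ} (ha : a ≤ η) : Fp η a 0 = a := by
  unfold Fp; rw [add_zero, min_eq_left (by linarith)]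

lemma Fm_zero_left {a : ℝ} (ha : 0 ≤ a) : Fm 0 a = a := by
  unfold Fm; rw [zero_sub, abs_neg, abs_of_nonneg ha]

lemma Fm_zero_right {a : ℝ} (ha : 0 ≤ a) : Fm a 0 = a := by
  unfold Fm; rw [sub_zero, abs_of_nonneg ha]

lemma Fm_self (a : ℝ) : Fm a a = 0 := by
  unfold Fm; rw [sub_self, abs_zero]

/-- Doubling. -/
theorem alpha_double (hW : IsShort W) (hd : NodeData v W.a₂ W.a₄) (P : W.toAffine.Point) :
    alpha v W (P + P) = Fp (v.w W.a₄) (alpha v W P) (alpha v W P) := by
  by_cases hP : P = 0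
  · subst hP
    rw [add_zero, alpha_zero]
    unfold Fp; rw [add_zero, min_eq_left (by linarith [hd.w_b])]
  cases P with
  | zero => exact absurd rfl hP
  | some x y h =>
    have e := hW.equation h.1
    by_cases hy : y = 0
    · rw [hW.add_self_of_Y_eq_zero h hy, alpha_zero, alpha_some]
      refine (Fp_two_torsion v hd ?_).symm
      rw [← e, hy]; ring
    · obtain ⟨z, yz, hz, hadd, hzz⟩ := hW.add_self_of_Y_ne_zero hd.two_ne h hy
      rw [hadd, alpha_some, alpha_some]
      exact dbl_alpha v hd hy e hzz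

/-- The parallelogram law. -/
theorem alpha_add_sub (hW : IsShort W) (hd : NodeData v W.a₂ W.a₄) (P Q : W.toAffine.Point) :
    (alpha v W (P + Q) = Fp (v.w W.a₄) (alpha v W P) (alpha v W Q) ∧
      alpha v W (P - Q) = Fm (alpha v W P) (alpha v W Q)) ∨
    (alpha v W (P + Q) = Fm (alpha v W P) (alpha v W Q) ∧
      alpha v W (P - Q) = Fp (v.w W.a₄) (alpha v W P) (alpha v W Q)) := by
  by_cases hP : P = 0
  · subst hP
    left
    rw [zero_add, zero_sub, alpha_neg, alpha_zero, Fp_zero_left (alpha_le hd Q),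
      Fm_zero_left (alpha_nonneg hd Q)]
    exact ⟨rfl, rfl⟩
  by_cases hQ : Q = 0
  · subst hQ
    left
    rw [add_zero, sub_zero, alpha_zero, Fp_zero_right (alpha_le hd P),
      Fm_zero_right (alpha_nonneg hd P)]
    exact ⟨rfl, rfl⟩
  by_cases hPQ : P = Q
  · subst hPQ
    left
    rw [sub_self, alpha_zero, Fm_self]
    exact ⟨alpha_double hW hd P, rfl⟩
  by_cases hPQ' : P = -Q
  · subst hPQ'
    right
    rw [neg_add_cancel, alpha_zero, alpha_neg, Fm_self]
    refine ⟨rfl, ?_⟩
    have : -Q - Q = -(Q + Q) := by abel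
    rw [this, alpha_neg]
    exact alpha_double hW hd Q
  cases P with
  | zero => exact absurd rfl hP
  | some x₁ y₁ h₁ =>
    cases Q with
    | zero => exact absurd rfl hQ
    | some x₂ y₂ h₂ =>
      have hx : x₁ ≠ x₂ := by
        intro hx
        rcases IsShort.eq_or_eq_neg_of_X_eq h₁ h₂ hx with h | h
        · exact hPQ h
        · exact hPQ' h
      obtain ⟨zp, yp, hp, zm, ym, hm, hadd, hsub, hPi, hS⟩ := hW.add_sub_of_X_ne h₁ h₂ hx
      rw [hadd, hsub]
      simp only [alpha_some]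
      exact chord_alpha v hd ⟨hx, hPi, hS⟩

/-- `α (m • P) ≈ m * α P`. -/
theorem alpha_nsmul_rel (hW : IsShort W) (hd : NodeData v W.a₂ W.a₄) (P : W.toAffine.Point)
    (m : ℕ) : Rel (v.w W.a₄) (alpha v W (m • P)) (m * alpha v W P) := by
  have h := rel_of_parallelogram (v.w W.a₄) (fun m => alpha v W (m • P))
    (by simp) (by
      intro m
      have := alpha_add_sub hW hd ((m + 1) • P) P
      have e1 : (m + 1) • P + P = (m + 2) • P := (succ_nsmul P (m + 1)).symm
      have e2 : (m + 1) • P - P = m • P := by rw [succ_nsmul, add_sub_cancel_right]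
      rw [e1, e2] at this
      simpa using this) m
  simpa using h

/-- If `n • P = 0` then `n * α P ∈ 2 η ℤ`. -/
theorem alpha_torsion (hW : IsShort W) (hd : NodeData v W.a₂ W.a₄) (P : W.toAffine.Point)
    {n : ℕ} (hP : n • P = 0) : ∃ k : ℤ, (n : ℝ) * alpha v W P = 2 * k * v.w W.a₄ := by
  have h := alpha_nsmul_rel hW hd P n
  rw [hP, alpha_zero] at h
  obtain ⟨k, hk | hk⟩ := h
  · exact ⟨-k, by push_cast; linarith⟩
  · exact ⟨k, by linarith⟩

/-- **Main theorem (component valuation).** Let `P = (x, y)` be a point of odd order `n` on the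
short model `y² = x³ + a x² + b x` (`w a = w 2 = 0`, `η = w b > 0`) which reduces to the node
(`x = 0` or `w x > 0`). Then `x ≠ 0`, `0 < w x < η` and `n * w x ∈ 2 η ℤ`. -/
theorem torsion_node (hW : IsShort W) (hd : NodeData v W.a₂ W.a₄) {x y : K}
    (h : W.toAffine.Nonsingular x y) {n : ℕ} (hn : Odd n) (hP : n • Point.some x y h = 0)
    (hx : x = 0 ∨ 0 < v.w x) :
    x ≠ 0 ∧ 0 < v.w x ∧ v.w x < v.w W.a₄ ∧ ∃ k : ℤ, (n : ℝ) * v.w x = 2 * k * v.w W.a₄ := by
  obtain ⟨k, hk⟩ := alpha_torsion hW hd _ hP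
  rw [alpha_some] at hk
  have hη := hd.w_b
  rcases trichotomy v (b := W.a₄) x with ⟨e1, e1w⟩ | ⟨m1, m1w, m1w'⟩ | g1
  · rcases hx with hx | hx
    · exact absurd hx e1
    · linarith
  · rw [alphaX_of_M v m1 m1w.le m1w'.le] at hk
    exact ⟨m1, m1w, m1w', k, hk⟩
  · exfalso
    rw [alphaX_of_H v hd g1] at hk
    have h1 : ((n : ℝ) - 2 * k) * v.w W.a₄ = 0 := by linarith
    rcases mul_eq_zero.mp h1 with h2 | h2
    · have h3 : ((n : ℤ) : ℝ) = ((2 * k : ℤ) : ℝ) := by push_cast; linarith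
      have h4 : (n : ℤ) = 2 * k := by exact_mod_cast h3
      have h5 : Odd (n : ℤ) := by exact_mod_cast hn
      rw [h4] at h5
      exact (Int.not_odd_iff_even.mpr (even_two_mul k)) h5
    · linarith

/-- Variant: if moreover `w b = n * w t` for some `t ≠ 0`, then `w x = w (t ^ k)` for some
integer `k`. -/
theorem torsion_node_zpow (hW : IsShort W) (hd : NodeData v W.a₂ W.a₄) {x y : K}
    (h : W.toAffine.Nonsingular x y) {n : ℕ} (hn : Odd n) (hP : n • Point.some x y h = 0)
    (hx : x = 0 ∨ 0 < v.w x) {t : K} (ht : t ≠ 0) (hb : v.w W.a₄ = n * v.w t) :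
    x ≠ 0 ∧ 0 < v.w x ∧ v.w x < v.w W.a₄ ∧ ∃ k : ℤ, v.w x = v.w (t ^ k) := by
  obtain ⟨h1, h2, h3, k, hk⟩ := torsion_node hW hd h hn hP hx
  refine ⟨h1, h2, h3, 2 * k, ?_⟩
  rw [v.w_zpow ht]
  have hn0 : (n : ℝ) ≠ 0 := by
    have : n ≠ 0 := by
      rintro rfl
      exact Nat.not_odd_zero hn
    exact_mod_cast this
  rw [hb] at hk
  have : (n : ℝ) * v.w x = n * ((2 * k : ℤ) * v.w t) := by push_cast; linarith
  exact mul_left_cancel₀ hn0 this

end

end Fermat.Agent.H71
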