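import Fermat.Agent.H71.GComponent
import Fermat.Prelude.Def_FLTPrelim_FreyPackage
import Mathlib.NumberTheory.Padics.PadicVal.Basic

/-!
# The `2`-adic component statement for the Frey curve (S13 / WP5 (C))

The Frey curve `y² + x y = x³ + a₂ x² + a₄ x` has `b₂ = b ^ p - a ^ p` odd and
`v₂ (a₄) = p v₂ (b) - 4 > 0` prime to `p`.  By the characteristic-free component theory
(`Fermat.Agent.H71.GComponent`) a rational point killed by `p` cannot reduce to the node
modulo `2`.
-/

set_option autoImplicit false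

open WeierstrassCurve WeierstrassCurve.Affine

namespace Fermat.Agent.H71

/-- The `q`-adic valuation on `ℚ` as a real-valued additive valuation. -/
noncomputable def padicAddVal (q : ℕ) [hq : Fact q.Prime] : AddVal ℚ where
  w x := (padicValRat q x : ℝ)
  map_mul' x y hx hy := by
    rw [padicValRat.mul hx hy]; push_cast; rfl
  map_add' x y hx hy hxy := by
    have := padicValRat.min_le_padicValRat_add (p := q) hxy
    rw [← Int.cast_min]
    exact_mod_cast this

@[simp] lemma padicAddVal_w (q : ℕ) [hq : Fact q.Prime] (x : ℚ) :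
    (padicAddVal q).w x = (padicValRat q x : ℝ) := rfl

section frey

variable (P : FreyPackage)

lemma frey_two_dvd_b : (2 : ℤ) ∣ P.b :=
  (ZMod.intCast_zmod_eq_zero_iff_dvd P.b 2).1 P.hb2

lemma frey_not_two_dvd_a : ¬ (2 : ℤ) ∣ P.a := by
  have h : ((P.a : ℤ) : ZMod 4) = ((3 : ℤ) : ZMod 4) := by
    rw [P.ha4]; rfl
  rw [ZMod.intCast_eq_intCast_iff_dvd_sub] at h
  intro h2
  obtain ⟨k, hk⟩ := h
  obtain ⟨j, hj⟩ := h2
  push_cast at hk
  omega

lemma frey_not_two_dvd_sub : ¬ (2 : ℤ) ∣ P.b ^ P.p - P.a ^ P.p := by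
  intro h
  have hb : (2 : ℤ) ∣ P.b ^ P.p := dvd_pow (frey_two_dvd_b P) P.hp0
  have ha : (2 : ℤ) ∣ P.a ^ P.p := by
    have := dvd_sub hb h
    rwa [sub_sub_cancel] at this
  exact frey_not_two_dvd_a P (Int.prime_two.dvd_of_dvd_pow ha)

lemma frey_b₂ : P.freyCurve.b₂ = ((P.b ^ P.p - P.a ^ P.p : ℤ) : ℚ) := by
  simp only [WeierstrassCurve.b₂, FreyPackage.freyCurve]
  push_cast
  ring

lemma frey_b₂_ne : P.freyCurve.b₂ ≠ 0 := by
  rw [frey_b₂, Ne, Int.cast_eq_zero]
  intro h
  exact frey_not_two_dvd_sub P (h ▸ dvd_zero _)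

lemma frey_val_b₂ : padicValRat 2 P.freyCurve.b₂ = 0 := by
  rw [frey_b₂, padicValRat.of_int]
  exact_mod_cast padicValInt.eq_zero_of_not_dvd (frey_not_two_dvd_sub P)

lemma frey_a₄ : P.freyCurve.a₄ = -((P.a : ℚ) ^ P.p) * ((P.b : ℚ) ^ P.p) / 16 := rfl

lemma frey_a₄_ne : P.freyCurve.a₄ ≠ 0 := by
  rw [frey_a₄]
  have ha : (P.a : ℚ) ≠ 0 := Int.cast_ne_zero.2 P.ha0
  have hb : (P.b : ℚ) ≠ 0 := Int.cast_ne_zero.2 P.hb0
  exact div_ne_zero (mul_ne_zero (neg_ne_zero.2 (pow_ne_zero _ ha)) (pow_ne_zero _ hb))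
    (by norm_num)

lemma frey_val_a : padicValRat 2 (P.a : ℚ) = 0 := by
  rw [padicValRat.of_int]
  exact_mod_cast padicValInt.eq_zero_of_not_dvd (frey_not_two_dvd_a P)

lemma frey_val_b_pos : 1 ≤ padicValRat 2 (P.b : ℚ) := by
  rw [padicValRat.of_int]
  have : 1 ≤ padicValInt 2 P.b := by
    have h := (padicValInt_dvd_iff (p := 2) 1 P.b).1 (by simpa using frey_two_dvd_b P)
    rcases h with h | h
    · exact absurd h P.hb0
    · exact h
  exact_mod_cast this

lemma frey_val_a₄ :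
    padicValRat 2 P.freyCurve.a₄ = (P.p : ℤ) * padicValRat 2 (P.b : ℚ) - 4 := by
  have ha : (P.a : ℚ) ≠ 0 := Int.cast_ne_zero.2 P.ha0
  have hb : (P.b : ℚ) ≠ 0 := Int.cast_ne_zero.2 P.hb0
  have h16 : padicValRat 2 (16 : ℚ) = 4 := by
    have e16 : (16 : ℚ) = (2 : ℚ) ^ 4 := by norm_num
    have e2 : padicValRat 2 (2 : ℚ) = 1 := by
      have := padicValRat.self (p := 2) (by norm_num)
      simpa using this
    rw [e16, padicValRat.pow, e2]; norm_num
  rw [frey_a₄, padicValRat.div (mul_ne_zero (neg_ne_zero.2 (pow_ne_zero _ ha))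
    (pow_ne_zero _ hb)) (by norm_num), padicValRat.mul (neg_ne_zero.2 (pow_ne_zero _ ha))
    (pow_ne_zero _ hb), padicValRat.neg, padicValRat.pow, padicValRat.pow, frey_val_a,
    h16]
  ring

end frey

section main

variable (P : FreyPackage)

lemma frey_isNodal : IsNodal P.freyCurve := ⟨rfl, rfl⟩

lemma frey_gNodeData : GNodeData (padicAddVal 2) P.freyCurve.b₂ P.freyCurve.a₄ where
  two_ge := by
    refine Or.inr ?_
    rw [padicAddVal_w]
    have e2 : padicValRat 2 (2 : ℚ) = 1 := by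
      have := padicValRat.self (p := 2) (by norm_num)
      simpa using this
    rw [e2]; norm_num
  B_ne := frey_b₂_ne P
  w_B := by rw [padicAddVal_w, frey_val_b₂]; norm_num
  b_ne := frey_a₄_ne P
  w_b := by
    rw [padicAddVal_w, frey_val_a₄]
    have h1 := frey_val_b_pos P
    have h5 := P.hp5
    have h5' : (5 : ℤ) ≤ (P.p : ℤ) := by exact_mod_cast h5
    have : (0 : ℤ) < (P.p : ℤ) * padicValRat 2 (P.b : ℚ) - 4 := by nlinarith
    exact_mod_cast this

/-- **The `2`-adic component statement for the Frey curve.** A rational point of the Frey curve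
killed by `p` never reduces to the node modulo `2`: its `x`-coordinate is a nonzero rational
number with `2`-adic valuation `≤ 0`. -/
theorem frey_rational_torsion_two {x y : ℚ} (h : P.freyCurve.toAffine.Nonsingular x y)
    (hP : P.p • Point.some x y h = 0) : x ≠ 0 ∧ padicValRat 2 x ≤ 0 := by
  by_contra hcon
  have hx : x = 0 ∨ 0 < (padicAddVal 2).w x := by
    by_cases hx0 : x = 0
    · exact Or.inl hx0
    · right
      rw [padicAddVal_w]
      have : ¬ padicValRat 2 x ≤ 0 := fun hle => hcon ⟨hx0, hle⟩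
      rw [not_le] at this
      exact_mod_cast this
  obtain ⟨hx0, hpos, hlt, k, hk⟩ :=
    gtorsion_node (frey_isNodal P) (frey_gNodeData P) h P.hp_odd hP hx
  rw [padicAddVal_w] at hpos hlt hk
  rw [padicAddVal_w, frey_val_a₄] at hlt hk
  -- everything is an integer now
  set m : ℤ := padicValRat 2 (P.b : ℚ) with hm
  set t : ℤ := padicValRat 2 x with ht
  have hpos' : 0 < t := by exact_mod_cast hpos
  have hlt' : t < (P.p : ℤ) * m - 4 := by exact_mod_cast hlt
  have hk' : (P.p : ℤ) * t = 2 * k * ((P.p : ℤ) * m - 4) := by exact_mod_cast hk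
  -- `p ∣ 8 k`, hence `p ∣ k`
  have hp : Prime (P.p : ℤ) := Nat.prime_iff_prime_int.mp P.pp
  have hdvd : (P.p : ℤ) ∣ 8 * k := by
    refine ⟨2 * k * m - t, ?_⟩
    linear_combination hk'
  have h5 := P.hp5
  have hnd8 : ¬ (P.p : ℤ) ∣ 8 := by
    intro h8
    have h2 : (P.p : ℤ) ∣ 2 := by
      have : (8 : ℤ) = 2 ^ 3 := by norm_num
      rw [this] at h8
      exact hp.dvd_of_dvd_pow h8
    have := Int.le_of_dvd (by norm_num) h2
    omega
  obtain ⟨j, hj⟩ := (hp.dvd_or_dvd hdvd).resolve_left hnd8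
  -- `t = 2 j (p m - 4)`
  have hp0 : (P.p : ℤ) ≠ 0 := by exact_mod_cast P.hp0
  have ht2 : t = 2 * j * ((P.p : ℤ) * m - 4) := by
    apply mul_left_cancel₀ hp0
    rw [hk', hj]; ring
  have hη : 0 < (P.p : ℤ) * m - 4 := lt_trans hpos' hlt'
  rcases le_or_gt j 0 with hj0 | hj0
  · have : t ≤ 0 := by
      rw [ht2]
      have : 2 * j * ((P.p : ℤ) * m - 4) ≤ 0 :=
        mul_nonpos_of_nonpos_of_nonneg (by linarith) hη.le
      exact this
    linarith
  · have : (P.p : ℤ) * m - 4 ≤ t := by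
      rw [ht2]
      nlinarith
    linarith

/-- `zsmul` version of `frey_rational_torsion_two`. -/
theorem frey_rational_torsion_two_zsmul {x y : ℚ} (h : P.freyCurve.toAffine.Nonsingular x y)
    (hP : (P.p : ℤ) • Point.some x y h = 0) : x ≠ 0 ∧ padicValRat 2 x ≤ 0 :=
  frey_rational_torsion_two P h (by rw [← natCast_zsmul]; exact hP)

end main

end Fermat.Agent.H71
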