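import Mathlib.RingTheory.Valuation.ValuationSubring
import Mathlib.RingTheory.Valuation.Integral
import Mathlib.RingTheory.Algebraic.Integral
import Mathlib.RingTheory.Localization.Integral
import Mathlib.RingTheory.Polynomial.Content
import Mathlib.Data.Real.Embedding
import Mathlib.Tactic
import Fermat.Agent.H4.IntVal
import Fermat.Agent.H71.AddVal

/-!
# From a valuation subring of an algebraic extension of `ℚ` to a real-valued valuation

Let `L` be an algebraic extension of `ℚ` and `A` a valuation subring of `L` in which the prime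
`q` is not a unit. Then the value group of `A` is archimedean (the valuation has rank one), hence
embeds in `ℝ`. We package the resulting real-valued additive valuation as an `AddVal`.
-/

set_option autoImplicit false

namespace Fermat.Agent.H71

variable {L : Type*} [Field L]

theorem val_le_one_of_isIntegral_int (A : ValuationSubring L) (x : L) (hx : IsIntegral ℤ x) :
    A.valuation x ≤ 1 := by
  have h1 : IsIntegral A x := hx.tower_top
  have h2 : A.valuation.Integers A.valuation.valuationSubring :=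
    Valuation.valuationSubring.integers A.valuation
  rw [A.valuationSubring_valuation] at h2
  exact h2.mem_of_integral h1

theorem isAlgebraic_int_of_rat [Algebra.IsAlgebraic ℤ L] (x : L) :
    IsAlgebraic ℤ x :=
  Algebra.IsAlgebraic.isAlgebraic (R := ℤ) x

/-- An algebraic extension of `ℚ` is algebraic over `ℤ` (for any `ℚ`-algebra structure). -/
theorem isAlgebraic_int_of_isAlgebraic_rat [Algebra ℚ L] [Algebra.IsAlgebraic ℚ L] :
    Algebra.IsAlgebraic ℤ L :=
  ⟨fun x => (IsFractionRing.isAlgebraic_iff ℤ ℚ L).2 (Algebra.IsAlgebraic.isAlgebraic (R := ℚ) x)⟩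

/-- the valuation of a nonzero natural number is a power of the valuation of `q`. -/
theorem val_natCast_eq_pow (A : ValuationSubring L) {q : ℕ} (hqp : q.Prime)
    (hq : A.valuation (q : L) < 1) {n : ℕ} (hn : n ≠ 0) :
    ∃ m : ℕ, A.valuation (n : L) = A.valuation (q : L) ^ m := by
  obtain ⟨e, n', hn', rfl⟩ := Nat.exists_eq_pow_mul_and_not_dvd hn q hqp.ne_one
  refine ⟨e, ?_⟩
  push_cast
  rw [map_mul, map_pow, Fermat.Agent.H4.val_natCast_eq_one_of_not_dvd A hqp hq hn', mul_one]

theorem val_intCast_eq_pow (A : ValuationSubring L) {q : ℕ} (hqp : q.Prime)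
    (hq : A.valuation (q : L) < 1) {n : ℤ} (hn : n ≠ 0) :
    ∃ m : ℕ, A.valuation (n : L) = A.valuation (q : L) ^ m := by
  obtain ⟨m, hm⟩ := val_natCast_eq_pow A hqp hq (n := n.natAbs) (Int.natAbs_ne_zero.2 hn)
  refine ⟨m, ?_⟩
  rw [← hm]
  rcases Int.natAbs_eq n with h | h
  · conv_lhs => rw [h]
    simp
  · conv_lhs => rw [h]
    simp

/-- lower bound: every nonzero element has valuation at least a power of `v q`. -/
theorem exists_pow_le_val [CharZero L] [Algebra.IsAlgebraic ℤ L] (A : ValuationSubring L) {q : ℕ}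
    (hqp : q.Prime) (hq : A.valuation (q : L) < 1) {x : L} (hx : x ≠ 0) :
    ∃ m : ℕ, A.valuation (q : L) ^ m ≤ A.valuation x := by
  obtain ⟨c, hc, hint⟩ := (isAlgebraic_int_of_rat x⁻¹).exists_integral_multiple
  obtain ⟨m, hm⟩ := val_intCast_eq_pow A hqp hq hc
  refine ⟨m, ?_⟩
  have h1 := val_le_one_of_isIntegral_int A _ hint
  rw [zsmul_eq_mul, map_mul, map_inv₀] at h1
  have hxpos : 0 < A.valuation x := by rw [Valuation.pos_iff]; exact hx
  rw [← hm]
  rwa [← div_eq_mul_inv, div_le_one₀ hxpos] at h1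

open Polynomial in
/-- an algebraic element is a root of a primitive integer polynomial. -/
theorem exists_primitive_root [CharZero L] [Algebra.IsAlgebraic ℤ L] (x : L) :
    ∃ P : ℤ[X], P.IsPrimitive ∧ aeval x P = 0 := by
  obtain ⟨P, hP0, hPx⟩ := isAlgebraic_int_of_rat x
  refine ⟨P.primPart, P.isPrimitive_primPart, ?_⟩
  have h1 : P = C P.content * P.primPart := P.eq_C_content_mul_primPart
  rw [h1, map_mul, aeval_C] at hPx
  have hc : (algebraMap ℤ L) P.content ≠ 0 := by
    rw [Ne, eq_intCast, Int.cast_eq_zero, content_eq_zero_iff]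
    exact hP0
  exact (mul_eq_zero.1 hPx).resolve_left hc

open Polynomial in
/-- upper bound: an element of the maximal ideal has a power of valuation at most `v q`. -/
theorem exists_val_pow_le [CharZero L] [Algebra.IsAlgebraic ℤ L] (A : ValuationSubring L) {q : ℕ}
    (hqp : q.Prime) (hq : A.valuation (q : L) < 1) {x : L} (hx : A.valuation x < 1) :
    ∃ N : ℕ, A.valuation x ^ N ≤ A.valuation (q : L) := by
  classical
  by_cases hx0 : x = 0
  · exact ⟨1, by rw [hx0, map_zero, pow_one]; exact zero_le⟩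
  have hxpos : 0 < A.valuation x := by rw [Valuation.pos_iff]; exact hx0
  obtain ⟨P, hprim, hPx⟩ := exists_primitive_root x
  -- some coefficient is not divisible by `q`
  have hex : ∃ i, ¬ ((q : ℤ) ∣ P.coeff i) := by
    by_contra hcon
    rw [not_exists] at hcon
    have hall : ∀ i, (q : ℤ) ∣ P.coeff i := fun i => not_not.1 (hcon i)
    have hdvd : C (q : ℤ) ∣ P := (C_dvd_iff_dvd_coeff _ _).2 hall
    have hu : IsUnit (q : ℤ) := hprim _ hdvd
    rw [Int.isUnit_iff] at hu
    have h2 := hqp.two_le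
    omega
  let i₁ := Nat.find hex
  have hi₁ : ¬ ((q : ℤ) ∣ P.coeff i₁) := Nat.find_spec hex
  have hlt : ∀ i, i < i₁ → (q : ℤ) ∣ P.coeff i := fun i hi => not_not.1 (Nat.find_min hex hi)
  refine ⟨i₁, ?_⟩
  by_contra hcon
  rw [not_le] at hcon
  have hci₁ : P.coeff i₁ ≠ 0 := fun h => hi₁ (h ▸ dvd_zero _)
  have hmem : i₁ ∈ Finset.range (P.natDegree + 1) :=
    Finset.mem_range.2 (Nat.lt_succ_of_le (le_natDegree_of_ne_zero hci₁))
  rw [aeval_eq_sum_range, ← Finset.add_sum_erase _ _ hmem] at hPx
  have hmain : A.valuation (P.coeff i₁ • x ^ i₁) = A.valuation x ^ i₁ := by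
    rw [zsmul_eq_mul, map_mul, map_pow,
      Fermat.Agent.H4.val_intCast_eq_one_of_not_dvd A hqp hq hi₁, one_mul]
  have hrest : A.valuation (∑ i ∈ (Finset.range (P.natDegree + 1)).erase i₁,
      P.coeff i • x ^ i) < A.valuation x ^ i₁ := by
    apply Valuation.map_sum_lt _ (pow_pos hxpos _).ne'
    intro i hi
    have hne : i ≠ i₁ := Finset.ne_of_mem_erase hi
    rw [zsmul_eq_mul, map_mul, map_pow]
    rcases lt_or_gt_of_ne hne with h | h
    · -- `i < i₁`
      have h1 : A.valuation ((P.coeff i : ℤ) : L) ≤ A.valuation (q : L) := by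
        obtain ⟨m, hm⟩ := hlt i h
        rw [hm]
        push_cast
        rw [map_mul]
        exact mul_le_of_le_one_right' (Fermat.Agent.H4.val_intCast_le_one A m)
      have h2 : A.valuation x ^ i ≤ 1 := pow_le_one₀ zero_le hx.le
      calc A.valuation ((P.coeff i : ℤ) : L) * A.valuation x ^ i
          ≤ A.valuation (q : L) * 1 := mul_le_mul' h1 h2
        _ = A.valuation (q : L) := mul_one _
        _ < A.valuation x ^ i₁ := hcon
    · -- `i₁ < i`
      have h1 : A.valuation ((P.coeff i : ℤ) : L) ≤ 1 := Fermat.Agent.H4.val_intCast_le_one A _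
      have h2 : A.valuation x ^ i < A.valuation x ^ i₁ :=
        pow_lt_pow_right_of_lt_one₀ hxpos hx h
      calc A.valuation ((P.coeff i : ℤ) : L) * A.valuation x ^ i
          ≤ 1 * A.valuation x ^ i := mul_le_mul' h1 le_rfl
        _ = A.valuation x ^ i := one_mul _
        _ < A.valuation x ^ i₁ := h2
  have hsum := Valuation.map_add_eq_of_lt_left A.valuation (hmain.symm ▸ hrest)
  rw [hPx, map_zero, hmain] at hsum
  exact (pow_pos hxpos i₁).ne hsum

/-- The value group of a valuation subring of an algebraic extension of `ℚ` lying over a prime is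
archimedean. -/
theorem mulArchimedean_units [CharZero L] [Algebra.IsAlgebraic ℤ L] (A : ValuationSubring L)
    {q : ℕ} (hqp : q.Prime) (hq : A.valuation (q : L) < 1) : MulArchimedean (A.ValueGroup)ˣ := by
  constructor
  intro x y hy
  obtain ⟨ξ, hξ⟩ := A.valuation_surjective (x : A.ValueGroup)
  obtain ⟨γ, hγ⟩ := A.valuation_surjective (y : A.ValueGroup)
  have hξ0 : ξ ≠ 0 := by
    rintro rfl
    rw [map_zero] at hξ
    exact x.ne_zero hξ.symm
  have hγ0 : γ ≠ 0 := by
    rintro rfl
    rw [map_zero] at hγ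
    exact y.ne_zero hγ.symm
  have hy1 : (1 : A.ValueGroup) < A.valuation γ := by
    rw [hγ]; exact_mod_cast hy
  have hγpos : 0 < A.valuation γ := lt_trans zero_lt_one hy1
  have hβ : A.valuation γ⁻¹ < 1 := by
    rw [map_inv₀]; exact inv_lt_one_of_one_lt₀ hy1
  obtain ⟨N, hN⟩ := exists_val_pow_le A hqp hq hβ
  obtain ⟨m, hm⟩ := exists_pow_le_val A hqp hq (inv_ne_zero hξ0)
  refine ⟨N * m, ?_⟩
  rw [← Units.val_le_val, Units.val_pow_eq_pow_val, ← hξ, ← hγ]
  rw [map_inv₀] at hN hm
  have hξpos : 0 < A.valuation ξ := by rw [Valuation.pos_iff]; exact hξ0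
  -- `v ξ ≤ (v q ^ m)⁻¹ ≤ ((v γ)⁻¹ ^ N) ^ m)⁻¹ = v γ ^ (N * m)`
  have h1 : ((A.valuation γ)⁻¹ ^ N) ^ m ≤ (A.valuation ξ)⁻¹ :=
    le_trans (pow_le_pow_left₀ zero_le hN m) hm
  rw [← pow_mul, inv_pow] at h1
  exact (inv_le_inv₀ (pow_pos hγpos _) hξpos).1 h1

/-- **Rank one.** A valuation subring of an algebraic extension of `ℚ` in which the prime `q` is
not a unit comes from a real-valued additive valuation. -/
theorem exists_addVal [CharZero L] [Algebra.IsAlgebraic ℤ L] (A : ValuationSubring L)
    {q : ℕ} (hqp : q.Prime) (hq : A.valuation (q : L) < 1) :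
    ∃ w : AddVal L, ∀ x y : L, x ≠ 0 → y ≠ 0 →
      (w.w x ≤ w.w y ↔ A.valuation y ≤ A.valuation x) := by
  classical
  have : MulArchimedean (A.ValueGroup)ˣ := mulArchimedean_units A hqp hq
  obtain ⟨f, hf⟩ :=
    Archimedean.exists_orderAddMonoidHom_real_injective (Additive (A.ValueGroup)ˣ)
  have hmono : StrictMono f := f.monotone'.strictMono_of_injective hf
  -- the unit attached to a nonzero element
  let u : ∀ x : L, x ≠ 0 → (A.ValueGroup)ˣ := fun x hx =>
    Units.mk0 (A.valuation x) ((Valuation.ne_zero_iff _).2 hx)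
  let w : L → ℝ := fun x => if hx : x = 0 then 0 else - f (Additive.ofMul (u x hx))
  have hw : ∀ x (hx : x ≠ 0), w x = - f (Additive.ofMul (u x hx)) := fun x hx => dif_neg hx
  have hle : ∀ x y (hx : x ≠ 0) (hy : y ≠ 0),
      (w x ≤ w y ↔ A.valuation y ≤ A.valuation x) := by
    intro x y hx hy
    rw [hw x hx, hw y hy, neg_le_neg_iff, hmono.le_iff_le]
    show u y hy ≤ u x hx ↔ _
    rw [← Units.val_le_val]
    exact Iff.rfl
  refine ⟨⟨w, ?_, ?_⟩, hle⟩
  · intro x y hx hy
    rw [hw x hx, hw y hy, hw (x * y) (mul_ne_zero hx hy), ← neg_add, ← map_add]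
    congr 2
    show Additive.ofMul (u (x * y) (mul_ne_zero hx hy)) = Additive.ofMul (u x hx * u y hy)
    congr 1
    apply Units.ext
    show A.valuation (x * y) = A.valuation x * A.valuation y
    exact map_mul _ _ _
  · intro x y hx hy hxy
    rcases le_max_iff.1 (A.valuation.map_add x y) with h | h
    · exact le_trans (min_le_left _ _) ((hle x (x + y) hx hxy).2 h)
    · exact le_trans (min_le_right _ _) ((hle y (x + y) hy hxy).2 h)


end Fermat.Agent.H71
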