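import Fermat.Agent.H71.AddVal

set_option autoImplicit false

namespace Fermat.Agent.H71

variable {K : Type*} [Field K]

/-- Valuation data for the short model `y² = x³ + a x² + b x` with a node at `x = 0`. -/
structure NodeData (v : AddVal K) (a b : K) : Prop where
  two_ne : (2 : K) ≠ 0
  w_two : v.w 2 = 0
  a_ne : a ≠ 0
  w_a : v.w a = 0
  b_ne : b ≠ 0
  w_b : 0 < v.w b

/-- The symmetric relations between the `x`-coordinates `x₁, x₂` of two points and the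
`x`-coordinates `zp, zm` of their sum and difference. -/
structure Chord (a b x₁ x₂ zp zm : K) : Prop where
  hx : x₁ ≠ x₂
  hP : zp * zm * (x₁ - x₂) ^ 2 = (x₁ * x₂ - b) ^ 2
  hS : (zp + zm) * (x₁ - x₂) ^ 2 = 2 * ((x₁ + x₂) * (x₁ * x₂ + b) + 2 * a * x₁ * x₂)

namespace Chord

variable {a b x₁ x₂ zp zm : K}

lemma symm (h : Chord a b x₁ x₂ zp zm) : Chord a b x₂ x₁ zp zm where
  hx := h.hx.symm
  hP := by linear_combination h.hP
  hS := by linear_combination h.hS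

lemma swap (h : Chord a b x₁ x₂ zp zm) : Chord a b x₁ x₂ zm zp where
  hx := h.hx
  hP := by linear_combination h.hP
  hS := by linear_combination h.hS

lemma hD (h : Chord a b x₁ x₂ zp zm) : x₁ - x₂ ≠ 0 := sub_ne_zero.mpr h.hx

end Chord

section cases

variable (v : AddVal K) {a b x₁ x₂ zp zm : K}

/-- valuation of `2 * a * x₁ * x₂`. -/
lemma w_two_a_mul (hd : NodeData v a b) (h1 : x₁ ≠ 0) (h2 : x₂ ≠ 0) :
    2 * a * x₁ * x₂ ≠ 0 ∧ v.w (2 * a * x₁ * x₂) = v.w x₁ + v.w x₂ := by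
  have h2a : (2 : K) * a ≠ 0 := mul_ne_zero hd.two_ne hd.a_ne
  have h2a1 : (2 : K) * a * x₁ ≠ 0 := mul_ne_zero h2a h1
  refine ⟨mul_ne_zero h2a1 h2, ?_⟩
  rw [v.w_mul h2a1 h2, v.w_mul h2a h1, v.w_mul hd.two_ne hd.a_ne, hd.w_two, hd.w_a]
  ring

lemma ge_two_a_mul (hd : NodeData v a b) {s t : ℝ} (h1 : v.ge x₁ s) (h2 : v.ge x₂ t) :
    v.ge (2 * a * x₁ * x₂) (s + t) := by
  have h2a : v.ge (2 * a) 0 := by
    refine Or.inr ?_
    rw [v.w_mul hd.two_ne hd.a_ne, hd.w_two, hd.w_a]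
    norm_num
  have := (h2a.mul v h1).mul v h2
  refine this.mono v (by linarith)

/-- Case (E,E): both `x₁, x₂` have valuation `≤ 0`. -/
lemma case_EE (hd : NodeData v a b) (h : Chord a b x₁ x₂ zp zm)
    (h1 : x₁ ≠ 0) (h1w : v.w x₁ ≤ 0) (h2 : x₂ ≠ 0) (h2w : v.w x₂ ≤ 0) :
    (zp ≠ 0 ∧ v.w zp ≤ 0) ∧ (zm ≠ 0 ∧ v.w zm ≤ 0) := by
  have hD := h.hD
  have h12 : x₁ * x₂ ≠ 0 := mul_ne_zero h1 h2
  have w12 := v.w_mul h1 h2
  have hbge : v.ge b (v.w b) := Or.inr le_rfl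
  -- N
  obtain ⟨hN0, hNw⟩ := v.w_sub_of_lt h12 hbge (by rw [w12]; linarith [hd.w_b])
  obtain ⟨hP0, hPw⟩ := v.prod_exact hD h.hP hN0
  -- D
  have hDw : min (v.w x₁) (v.w x₂) ≤ v.w (x₁ - x₂) := by
    have := v.w_add h1 (neg_ne_zero.mpr h2) (by rwa [← sub_eq_add_neg])
    rwa [v.w_neg, ← sub_eq_add_neg] at this
  -- M
  have hm1 : v.ge (x₁ + x₂) (min (v.w x₁) (v.w x₂)) :=
    (v.ge_of_w (min_le_left _ _)).add v (v.ge_of_w (min_le_right _ _))
  have hm2 : v.ge (x₁ * x₂ + b) (v.w x₁ + v.w x₂) :=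
    (v.ge_of_w w12.ge).add v (hbge.mono v (by linarith [hd.w_b]))
  have hm3 : v.ge (2 * a * x₁ * x₂) (v.w x₁ + v.w x₂) :=
    ge_two_a_mul v hd (v.ge_of_w le_rfl) (v.ge_of_w le_rfl)
  have hmin0 : min (v.w x₁) (v.w x₂) ≤ 0 := (min_le_left _ _).trans h1w
  have hM : v.ge ((x₁ + x₂) * (x₁ * x₂ + b) + 2 * a * x₁ * x₂)
      (min (v.w x₁) (v.w x₂) + (v.w x₁ + v.w x₂)) :=
    (hm1.mul v hm2).add v (hm3.mono v (by linarith))
  have hS := v.sum_ge hd.two_ne hd.w_two hD h.hS hM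
  have hminge : v.w x₁ + v.w x₂ ≤ min (v.w x₁) (v.w x₂) := le_min (by linarith) (by linarith)
  have hmax : v.w x₁ + v.w x₂ - v.w (x₁ - x₂) ≤ 0 := by
    rcases min_le_iff.mp (le_refl (min (v.w x₁) (v.w x₂))) with hh | hh <;> linarith
  refine v.roots_le_zero (t := v.w x₁ + v.w x₂ - v.w (x₁ - x₂)) hP0 ?_ hmax (hS.mono v ?_)
  · rw [hPw, hNw, w12]; ring
  · linarith

/-- Case (E,M). -/
lemma case_EM (hd : NodeData v a b) (h : Chord a b x₁ x₂ zp zm)
    (h1 : x₁ ≠ 0) (h1w : v.w x₁ ≤ 0) (h2 : x₂ ≠ 0) (h2w : 0 < v.w x₂) (h2w' : v.w x₂ < v.w b) :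
    (zp ≠ 0 ∧ v.w zp = v.w x₂) ∧ (zm ≠ 0 ∧ v.w zm = v.w x₂) := by
  have hD := h.hD
  have h12 : x₁ * x₂ ≠ 0 := mul_ne_zero h1 h2
  have w12 := v.w_mul h1 h2
  have hbge : v.ge b (v.w b) := Or.inr le_rfl
  obtain ⟨hN0, hNw⟩ := v.w_sub_of_lt h12 hbge (by rw [w12]; linarith)
  obtain ⟨hP0, hPw⟩ := v.prod_exact hD h.hP hN0
  obtain ⟨_, hDw⟩ := v.w_sub_of_lt h1 (v.ge_of_w (le_refl (v.w x₂))) (by linarith)
  have hm1 : v.ge (x₁ + x₂) (v.w x₁) :=
    (v.ge_of_w le_rfl).add v (v.ge_of_w (by linarith))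
  have hm2 : v.ge (x₁ * x₂ + b) (v.w x₁ + v.w x₂) :=
    (v.ge_of_w w12.ge).add v (hbge.mono v (by linarith))
  have hm3 : v.ge (2 * a * x₁ * x₂) (v.w x₁ + v.w x₂) :=
    ge_two_a_mul v hd (v.ge_of_w le_rfl) (v.ge_of_w le_rfl)
  have hM : v.ge ((x₁ + x₂) * (x₁ * x₂ + b) + 2 * a * x₁ * x₂)
      (v.w x₁ + (v.w x₁ + v.w x₂)) :=
    (hm1.mul v hm2).add v (hm3.mono v (by linarith))
  have hS := v.sum_ge hd.two_ne hd.w_two hD h.hS hM
  refine v.roots_eq hP0 ?_ (hS.mono v ?_)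
  · rw [hPw, hNw, w12, hDw]; ring
  · rw [hDw]; linarith

/-- Case (E,H). -/
lemma case_EH (hd : NodeData v a b) (h : Chord a b x₁ x₂ zp zm)
    (h1 : x₁ ≠ 0) (h1w : v.w x₁ ≤ 0) (h2 : v.ge x₂ (v.w b)) :
    v.ge zp (v.w b) ∧ v.ge zm (v.w b) := by
  have hD := h.hD
  have hbge : v.ge b (v.w b) := Or.inr le_rfl
  have hη := hd.w_b
  obtain ⟨_, hDw⟩ := v.w_sub_of_lt h1 h2 (by linarith)
  have h12 : v.ge (x₁ * x₂) (v.w x₁ + v.w b) := (v.ge_of_w le_rfl).mul v h2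
  have hN : v.ge (x₁ * x₂ - b) (v.w x₁ + v.w b) := h12.sub v (hbge.mono v (by linarith))
  have hP := v.prod_ge hD h.hP hN
  have hm1 : v.ge (x₁ + x₂) (v.w x₁) :=
    (v.ge_of_w le_rfl).add v (h2.mono v (by linarith))
  have hm2 : v.ge (x₁ * x₂ + b) (v.w x₁ + v.w b) := h12.add v (hbge.mono v (by linarith))
  have hm3 : v.ge (2 * a * x₁ * x₂) (v.w x₁ + v.w b) :=
    ge_two_a_mul v hd (v.ge_of_w le_rfl) h2
  have hM : v.ge ((x₁ + x₂) * (x₁ * x₂ + b) + 2 * a * x₁ * x₂)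
      (v.w x₁ + (v.w x₁ + v.w b)) :=
    (hm1.mul v hm2).add v (hm3.mono v (by linarith))
  have hS := v.sum_ge hd.two_ne hd.w_two hD h.hS hM
  refine v.roots_ge (hP.mono v ?_) (hS.mono v ?_)
  · rw [hDw]; linarith
  · rw [hDw]; linarith

/-- Case (M,H). -/
lemma case_MH (hd : NodeData v a b) (h : Chord a b x₁ x₂ zp zm)
    (h1 : x₁ ≠ 0) (h1w : 0 < v.w x₁) (h1w' : v.w x₁ < v.w b) (h2 : v.ge x₂ (v.w b)) :
    (zp ≠ 0 ∧ v.w zp = v.w b - v.w x₁) ∧ (zm ≠ 0 ∧ v.w zm = v.w b - v.w x₁) := by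
  have hD := h.hD
  have hbge : v.ge b (v.w b) := Or.inr le_rfl
  have hη := hd.w_b
  obtain ⟨_, hDw⟩ := v.w_sub_of_lt h1 h2 h1w'
  have h12 : v.ge (x₁ * x₂) (v.w x₁ + v.w b) := (v.ge_of_w le_rfl).mul v h2
  obtain ⟨hN0, hNw⟩ := v.w_sub_of_lt' hd.b_ne h12 (by linarith)
  obtain ⟨hP0, hPw⟩ := v.prod_exact hD h.hP hN0
  have hm1 : v.ge (x₁ + x₂) (v.w x₁) :=
    (v.ge_of_w le_rfl).add v (h2.mono v (by linarith))
  have hm2 : v.ge (x₁ * x₂ + b) (v.w b) := (h12.mono v (by linarith)).add v hbge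
  have hm3 : v.ge (2 * a * x₁ * x₂) (v.w x₁ + v.w b) :=
    ge_two_a_mul v hd (v.ge_of_w le_rfl) h2
  have hM : v.ge ((x₁ + x₂) * (x₁ * x₂ + b) + 2 * a * x₁ * x₂)
      (v.w x₁ + v.w b) :=
    (hm1.mul v hm2).add v hm3
  have hS := v.sum_ge hd.two_ne hd.w_two hD h.hS hM
  refine v.roots_eq hP0 ?_ (hS.mono v ?_)
  · rw [hPw, hNw, hDw]; ring
  · rw [hDw]; linarith

/-- Case (H,H). -/
lemma case_HH (hd : NodeData v a b) (h : Chord a b x₁ x₂ zp zm)
    (h1 : v.ge x₁ (v.w b)) (h2 : v.ge x₂ (v.w b)) :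
    (zp ≠ 0 ∧ v.w zp ≤ 0) ∧ (zm ≠ 0 ∧ v.w zm ≤ 0) := by
  have hD := h.hD
  have hbge : v.ge b (v.w b) := Or.inr le_rfl
  have hη := hd.w_b
  have hDw : v.w b ≤ v.w (x₁ - x₂) := (h1.sub v h2).w_le v hD
  have h12 : v.ge (x₁ * x₂) (v.w b + v.w b) := h1.mul v h2
  obtain ⟨hN0, hNw⟩ := v.w_sub_of_lt' hd.b_ne h12 (by linarith)
  obtain ⟨hP0, hPw⟩ := v.prod_exact hD h.hP hN0
  have hm1 : v.ge (x₁ + x₂) (v.w b) := h1.add v h2
  have hm2 : v.ge (x₁ * x₂ + b) (v.w b) := (h12.mono v (by linarith)).add v hbge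
  have hm3 : v.ge (2 * a * x₁ * x₂) (v.w b + v.w b) := ge_two_a_mul v hd h1 h2
  have hM : v.ge ((x₁ + x₂) * (x₁ * x₂ + b) + 2 * a * x₁ * x₂)
      (v.w b + v.w b) :=
    (hm1.mul v hm2).add v hm3
  have hS := v.sum_ge hd.two_ne hd.w_two hD h.hS hM
  refine v.roots_le_zero (t := v.w b - v.w (x₁ - x₂)) hP0 ?_ (by linarith) (hS.mono v ?_)
  · rw [hPw, hNw]; ring
  · linarith

end cases

/-! ### The clipped valuation -/

/-- The clipped valuation `max 0 (min (w x) η)` with `η = w b` (and value `η` at `x = 0`). -/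
noncomputable def alphaX (v : AddVal K) (b x : K) : ℝ :=
  open Classical in if x = 0 then v.w b else max 0 (min (v.w x) (v.w b))

/-- `fold (a₁ + a₂)`. -/
noncomputable def Fp (η a₁ a₂ : ℝ) : ℝ := min (a₁ + a₂) (2 * η - (a₁ + a₂))

/-- `fold (a₁ - a₂)`. -/
noncomputable def Fm (a₁ a₂ : ℝ) : ℝ := |a₁ - a₂|

lemma Fp_comm (η a₁ a₂ : ℝ) : Fp η a₁ a₂ = Fp η a₂ a₁ := by
  unfold Fp; rw [add_comm]

lemma Fm_comm (a₁ a₂ : ℝ) : Fm a₁ a₂ = Fm a₂ a₁ := by
  unfold Fm; exact abs_sub_comm _ _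

section alpha

variable (v : AddVal K) {a b : K}

lemma alphaX_zero : alphaX v b 0 = v.w b := by
  simp [alphaX]

lemma alphaX_of_ne {x : K} (hx : x ≠ 0) : alphaX v b x = max 0 (min (v.w x) (v.w b)) := by
  simp [alphaX, hx]

lemma alphaX_of_E (hd : NodeData v a b) {x : K} (hx : x ≠ 0) (hw : v.w x ≤ 0) :
    alphaX v b x = 0 := by
  rw [alphaX_of_ne v hx]
  have := hd.w_b
  rw [min_eq_left (by linarith), max_eq_left hw]

lemma alphaX_of_M {x : K} (hx : x ≠ 0) (h0 : 0 ≤ v.w x) (h1 : v.w x ≤ v.w b) :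
    alphaX v b x = v.w x := by
  rw [alphaX_of_ne v hx, min_eq_left h1, max_eq_right h0]

lemma alphaX_of_H (hd : NodeData v a b) {x : K} (hx : v.ge x (v.w b)) :
    alphaX v b x = v.w b := by
  by_cases h0 : x = 0
  · subst h0; exact alphaX_zero v
  · rw [alphaX_of_ne v h0, min_eq_right (hx.w_le v h0), max_eq_right hd.w_b.le]

lemma alphaX_nonneg (hd : NodeData v a b) (x : K) : 0 ≤ alphaX v b x := by
  by_cases h0 : x = 0
  · subst h0; rw [alphaX_zero]; exact hd.w_b.le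
  · rw [alphaX_of_ne v h0]; exact le_max_left _ _

lemma alphaX_le (hd : NodeData v a b) (x : K) : alphaX v b x ≤ v.w b := by
  by_cases h0 : x = 0
  · subst h0; rw [alphaX_zero]
  · rw [alphaX_of_ne v h0]; exact max_le hd.w_b.le (min_le_right _ _)

/-- Trichotomy. -/
lemma trichotomy (x : K) :
    (x ≠ 0 ∧ v.w x ≤ 0) ∨ (x ≠ 0 ∧ 0 < v.w x ∧ v.w x < v.w b) ∨ v.ge x (v.w b) := by
  by_cases h0 : x = 0
  · exact Or.inr (Or.inr (Or.inl h0))
  · rcases le_or_gt (v.w x) 0 with h | h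
    · exact Or.inl ⟨h0, h⟩
    · rcases lt_or_ge (v.w x) (v.w b) with h' | h'
      · exact Or.inr (Or.inl ⟨h0, h, h'⟩)
      · exact Or.inr (Or.inr (Or.inr h'))

end alpha

section casesMM

variable (v : AddVal K) {a b x₁ x₂ zp zm : K}

/-- Case (M,M) with `w x₁ < w x₂`. -/
lemma case_MM_lt (hd : NodeData v a b) (h : Chord a b x₁ x₂ zp zm)
    (h1 : x₁ ≠ 0) (h1w : 0 < v.w x₁) (h2 : x₂ ≠ 0) (h2w' : v.w x₂ < v.w b)
    (hlt : v.w x₁ < v.w x₂) :
    (alphaX v b zp = Fp (v.w b) (v.w x₁) (v.w x₂) ∧ alphaX v b zm = v.w x₂ - v.w x₁) ∨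
    (alphaX v b zp = v.w x₂ - v.w x₁ ∧ alphaX v b zm = Fp (v.w b) (v.w x₁) (v.w x₂)) := by
  have hD := h.hD
  have h12 : x₁ * x₂ ≠ 0 := mul_ne_zero h1 h2
  have w12 := v.w_mul h1 h2
  have hbge : v.ge b (v.w b) := Or.inr le_rfl
  have hη := hd.w_b
  obtain ⟨_, hDw⟩ := v.w_sub_of_lt h1 (v.ge_of_w (le_refl (v.w x₂))) hlt
  -- M
  have hm1 : v.ge (x₁ + x₂) (v.w x₁) :=
    (v.ge_of_w le_rfl).add v (v.ge_of_w hlt.le)
  have hm2 : v.ge (x₁ * x₂ + b) (min (v.w x₁ + v.w x₂) (v.w b)) :=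
    (v.ge_of_w (by rw [w12]; exact min_le_left _ _)).add v (hbge.mono v (min_le_right _ _))
  obtain ⟨hm3, hm3w⟩ := w_two_a_mul v hd h1 h2
  have hmlt : v.w x₁ + v.w x₂ < v.w x₁ + min (v.w x₁ + v.w x₂) (v.w b) := by
    have : v.w x₂ < min (v.w x₁ + v.w x₂) (v.w b) := lt_min (by linarith) h2w'
    linarith
  obtain ⟨hM0, hMw⟩ := v.w_add_of_lt' hm3 (hm1.mul v hm2) (by rw [hm3w]; exact hmlt)
  obtain ⟨hS0, hSw⟩ := v.sum_exact hd.two_ne hd.w_two hD h.hS hM0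
  rw [hMw, hm3w, hDw] at hSw
  have hSw' : v.w (zp + zm) = v.w x₂ - v.w x₁ := by rw [hSw]; ring
  -- N
  rcases lt_trichotomy (v.w x₁ + v.w x₂) (v.w b) with hc | hc | hc
  · obtain ⟨hN0, hNw⟩ := v.w_sub_of_lt h12 hbge (by rw [w12]; exact hc)
    obtain ⟨hP0, hPw⟩ := v.prod_exact hD h.hP hN0
    have hFp : Fp (v.w b) (v.w x₁) (v.w x₂) = v.w x₁ + v.w x₂ := by
      unfold Fp; exact min_eq_left (by linarith)
    rw [hFp]
    rcases v.roots_split_exact (r := v.w x₁ + v.w x₂) hS0 hSw' (by linarith) hP0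
        (by rw [hPw, hNw, w12, hDw]; ring) with ⟨a1, a2, a3, a4⟩ | ⟨a1, a2, a3, a4⟩
    · right
      exact ⟨by rw [alphaX_of_M v a1 (by linarith) (by linarith), a2],
        by rw [alphaX_of_M v a3 (by linarith) (by linarith), a4]⟩
    · left
      exact ⟨by rw [alphaX_of_M v a3 (by linarith) (by linarith), a4],
        by rw [alphaX_of_M v a1 (by linarith) (by linarith), a2]⟩
  · -- w x₁ + w x₂ = η
    have hN : v.ge (x₁ * x₂ - b) (v.w b) := (v.ge_of_w (by rw [w12, hc])).sub v hbge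
    have hP := v.prod_ge hD h.hP hN
    have hFp : Fp (v.w b) (v.w x₁) (v.w x₂) = v.w b := by
      unfold Fp; rw [hc]; exact min_eq_left (by linarith)
    rw [hFp]
    rcases v.roots_split (r := v.w b) hS0 hSw' (by linarith)
        (hP.mono v (by rw [hDw]; linarith)) with ⟨a1, a2, a3⟩ | ⟨a1, a2, a3⟩
    · right
      exact ⟨by rw [alphaX_of_M v a1 (by linarith) (by linarith), a2], alphaX_of_H v hd a3⟩
    · left
      exact ⟨alphaX_of_H v hd a3, by rw [alphaX_of_M v a1 (by linarith) (by linarith), a2]⟩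
  · obtain ⟨hN0, hNw⟩ := v.w_sub_of_lt' hd.b_ne (v.ge_of_w (le_of_eq w12.symm)) hc
    obtain ⟨hP0, hPw⟩ := v.prod_exact hD h.hP hN0
    have hFp : Fp (v.w b) (v.w x₁) (v.w x₂) = 2 * v.w b - (v.w x₁ + v.w x₂) := by
      unfold Fp; exact min_eq_right (by linarith)
    rw [hFp]
    rcases v.roots_split_exact (r := 2 * v.w b - (v.w x₁ + v.w x₂)) hS0 hSw' (by linarith) hP0
        (by rw [hPw, hNw, hDw]; ring) with ⟨a1, a2, a3, a4⟩ | ⟨a1, a2, a3, a4⟩
    · right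
      exact ⟨by rw [alphaX_of_M v a1 (by linarith) (by linarith), a2],
        by rw [alphaX_of_M v a3 (by linarith) (by linarith), a4]⟩
    · left
      exact ⟨by rw [alphaX_of_M v a3 (by linarith) (by linarith), a4],
        by rw [alphaX_of_M v a1 (by linarith) (by linarith), a2]⟩

/-- Case (M,M) with `w x₁ = w x₂`. -/
lemma case_MM_eq (hd : NodeData v a b) (h : Chord a b x₁ x₂ zp zm)
    (h1 : x₁ ≠ 0) (h1w : 0 < v.w x₁) (h1w' : v.w x₁ < v.w b) (h2 : x₂ ≠ 0)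
    (heq : v.w x₂ = v.w x₁) :
    (alphaX v b zp = Fp (v.w b) (v.w x₁) (v.w x₁) ∧ alphaX v b zm = 0) ∨
    (alphaX v b zp = 0 ∧ alphaX v b zm = Fp (v.w b) (v.w x₁) (v.w x₁)) := by
  have hD := h.hD
  have h12 : x₁ * x₂ ≠ 0 := mul_ne_zero h1 h2
  have w12 := v.w_mul h1 h2
  rw [heq] at w12
  have hbge : v.ge b (v.w b) := Or.inr le_rfl
  have hη := hd.w_b
  have hDw : v.w x₁ ≤ v.w (x₁ - x₂) :=
    ((v.ge_of_w le_rfl).sub v (v.ge_of_w heq.ge)).w_le v hD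
  -- M
  have hm1 : v.ge (x₁ + x₂) (v.w x₁) :=
    (v.ge_of_w le_rfl).add v (v.ge_of_w heq.ge)
  have hm2 : v.ge (x₁ * x₂ + b) (min (v.w x₁ + v.w x₁) (v.w b)) :=
    (v.ge_of_w (by rw [w12]; exact min_le_left _ _)).add v (hbge.mono v (min_le_right _ _))
  obtain ⟨hm3, hm3w⟩ := w_two_a_mul v hd h1 h2
  rw [heq] at hm3w
  have hmlt : v.w x₁ + v.w x₁ < v.w x₁ + min (v.w x₁ + v.w x₁) (v.w b) := by
    have : v.w x₁ < min (v.w x₁ + v.w x₁) (v.w b) := lt_min (by linarith) h1w'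
    linarith
  obtain ⟨hM0, hMw⟩ := v.w_add_of_lt' hm3 (hm1.mul v hm2) (by rw [hm3w]; exact hmlt)
  obtain ⟨hS0, hSw⟩ := v.sum_exact hd.two_ne hd.w_two hD h.hS hM0
  rw [hMw, hm3w] at hSw
  have hSw' : v.w (zp + zm) = 2 * v.w x₁ - 2 * v.w (x₁ - x₂) := by rw [hSw]; ring
  rcases lt_trichotomy (v.w x₁ + v.w x₁) (v.w b) with hc | hc | hc
  · obtain ⟨hN0, hNw⟩ := v.w_sub_of_lt h12 hbge (by rw [w12]; exact hc)
    obtain ⟨hP0, hPw⟩ := v.prod_exact hD h.hP hN0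
    have hFp : Fp (v.w b) (v.w x₁) (v.w x₁) = v.w x₁ + v.w x₁ := by
      unfold Fp; exact min_eq_left (by linarith)
    rw [hFp]
    rcases v.roots_split_exact (r := v.w x₁ + v.w x₁) hS0 hSw' (by linarith) hP0
        (by rw [hPw, hNw, w12]; ring) with ⟨a1, a2, a3, a4⟩ | ⟨a1, a2, a3, a4⟩
    · right
      exact ⟨alphaX_of_E v hd a1 (by linarith),
        by rw [alphaX_of_M v a3 (by linarith) (by linarith), a4]⟩
    · left
      exact ⟨by rw [alphaX_of_M v a3 (by linarith) (by linarith), a4],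
        alphaX_of_E v hd a1 (by linarith)⟩
  · have hN : v.ge (x₁ * x₂ - b) (v.w b) := (v.ge_of_w (by rw [w12, hc])).sub v hbge
    have hP := v.prod_ge hD h.hP hN
    have hFp : Fp (v.w b) (v.w x₁) (v.w x₁) = v.w b := by
      unfold Fp; rw [hc]; exact min_eq_left (by linarith)
    rw [hFp]
    rcases v.roots_split (r := v.w b) hS0 hSw' (by linarith)
        (hP.mono v (by linarith)) with ⟨a1, a2, a3⟩ | ⟨a1, a2, a3⟩
    · right
      exact ⟨alphaX_of_E v hd a1 (by linarith), alphaX_of_H v hd a3⟩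
    · left
      exact ⟨alphaX_of_H v hd a3, alphaX_of_E v hd a1 (by linarith)⟩
  · obtain ⟨hN0, hNw⟩ := v.w_sub_of_lt' hd.b_ne (v.ge_of_w (le_of_eq w12.symm)) hc
    obtain ⟨hP0, hPw⟩ := v.prod_exact hD h.hP hN0
    have hFp : Fp (v.w b) (v.w x₁) (v.w x₁) = 2 * v.w b - (v.w x₁ + v.w x₁) := by
      unfold Fp; exact min_eq_right (by linarith)
    rw [hFp]
    rcases v.roots_split_exact (r := 2 * v.w b - (v.w x₁ + v.w x₁)) hS0 hSw' (by linarith) hP0
        (by rw [hPw, hNw]; ring) with ⟨a1, a2, a3, a4⟩ | ⟨a1, a2, a3, a4⟩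
    · right
      exact ⟨alphaX_of_E v hd a1 (by linarith),
        by rw [alphaX_of_M v a3 (by linarith) (by linarith), a4]⟩
    · left
      exact ⟨by rw [alphaX_of_M v a3 (by linarith) (by linarith), a4],
        alphaX_of_E v hd a1 (by linarith)⟩

end casesMM

section chord

variable (v : AddVal K) {a b x₁ x₂ zp zm : K}

/-- The parallelogram law for a generic chord, in terms of the clipped valuation. -/
theorem chord_alpha (hd : NodeData v a b) (h : Chord a b x₁ x₂ zp zm) :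
    (alphaX v b zp = Fp (v.w b) (alphaX v b x₁) (alphaX v b x₂) ∧
      alphaX v b zm = Fm (alphaX v b x₁) (alphaX v b x₂)) ∨
    (alphaX v b zp = Fm (alphaX v b x₁) (alphaX v b x₂) ∧
      alphaX v b zm = Fp (v.w b) (alphaX v b x₁) (alphaX v b x₂)) := by
  have hη := hd.w_b
  rcases trichotomy v (b := b) x₁ with ⟨e1, e1w⟩ | ⟨m1, m1w, m1w'⟩ | g1 <;>
  rcases trichotomy v (b := b) x₂ with ⟨e2, e2w⟩ | ⟨m2, m2w, m2w'⟩ | g2
  · -- E E
    obtain ⟨⟨p0, pw⟩, ⟨q0, qw⟩⟩ := case_EE v hd h e1 e1w e2 e2w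
    rw [alphaX_of_E v hd e1 e1w, alphaX_of_E v hd e2 e2w, alphaX_of_E v hd p0 pw,
      alphaX_of_E v hd q0 qw]
    left
    constructor
    · unfold Fp; rw [min_eq_left (by linarith)]; ring
    · unfold Fm; simp
  · -- E M
    obtain ⟨⟨p0, pw⟩, ⟨q0, qw⟩⟩ := case_EM v hd h e1 e1w m2 m2w m2w'
    rw [alphaX_of_E v hd e1 e1w, alphaX_of_M v m2 m2w.le m2w'.le,
      alphaX_of_M v p0 (by linarith) (by linarith), alphaX_of_M v q0 (by linarith) (by linarith),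
      pw, qw]
    left
    constructor
    · unfold Fp; rw [min_eq_left (by linarith)]; ring
    · unfold Fm; rw [zero_sub, abs_neg, abs_of_pos m2w]
  · -- E H
    obtain ⟨p, q⟩ := case_EH v hd h e1 e1w g2
    rw [alphaX_of_E v hd e1 e1w, alphaX_of_H v hd g2, alphaX_of_H v hd p, alphaX_of_H v hd q]
    left
    constructor
    · unfold Fp; rw [min_eq_left (by linarith)]; ring
    · unfold Fm; rw [zero_sub, abs_neg, abs_of_pos hη]
  · -- M E
    obtain ⟨⟨p0, pw⟩, ⟨q0, qw⟩⟩ := case_EM v hd h.symm e2 e2w m1 m1w m1w'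
    rw [alphaX_of_E v hd e2 e2w, alphaX_of_M v m1 m1w.le m1w'.le,
      alphaX_of_M v p0 (by linarith) (by linarith), alphaX_of_M v q0 (by linarith) (by linarith),
      pw, qw]
    left
    constructor
    · unfold Fp; rw [min_eq_left (by linarith)]; ring
    · unfold Fm; rw [sub_zero, abs_of_pos m1w]
  · -- M M
    rw [alphaX_of_M v m1 m1w.le m1w'.le, alphaX_of_M v m2 m2w.le m2w'.le]
    rcases lt_trichotomy (v.w x₁) (v.w x₂) with hc | hc | hc
    · have hFm : Fm (v.w x₁) (v.w x₂) = v.w x₂ - v.w x₁ := by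
        unfold Fm; rw [abs_sub_comm, abs_of_pos (by linarith)]
      rw [hFm]
      exact case_MM_lt v hd h m1 m1w m2 m2w' hc
    · have hFm : Fm (v.w x₁) (v.w x₂) = 0 := by
        unfold Fm; rw [hc, sub_self, abs_zero]
      rw [hFm, ← hc]
      exact case_MM_eq v hd h m1 m1w m1w' m2 hc.symm
    · have hFm : Fm (v.w x₁) (v.w x₂) = v.w x₁ - v.w x₂ := by
        unfold Fm; rw [abs_of_pos (by linarith)]
      rw [hFm, Fp_comm]
      exact case_MM_lt v hd h.symm m2 m2w m1 m1w' hc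
  · -- M H
    obtain ⟨⟨p0, pw⟩, ⟨q0, qw⟩⟩ := case_MH v hd h m1 m1w m1w' g2
    rw [alphaX_of_M v m1 m1w.le m1w'.le, alphaX_of_H v hd g2,
      alphaX_of_M v p0 (by linarith) (by linarith), alphaX_of_M v q0 (by linarith) (by linarith),
      pw, qw]
    left
    constructor
    · unfold Fp; rw [min_eq_right (by linarith)]; ring
    · unfold Fm; rw [abs_sub_comm, abs_of_pos (by linarith)]
  · -- H E
    obtain ⟨p, q⟩ := case_EH v hd h.symm e2 e2w g1
    rw [alphaX_of_E v hd e2 e2w, alphaX_of_H v hd g1, alphaX_of_H v hd p, alphaX_of_H v hd q]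
    left
    constructor
    · unfold Fp; rw [min_eq_left (by linarith)]; ring
    · unfold Fm; rw [sub_zero, abs_of_pos hη]
  · -- H M
    obtain ⟨⟨p0, pw⟩, ⟨q0, qw⟩⟩ := case_MH v hd h.symm m2 m2w m2w' g1
    rw [alphaX_of_M v m2 m2w.le m2w'.le, alphaX_of_H v hd g1,
      alphaX_of_M v p0 (by linarith) (by linarith), alphaX_of_M v q0 (by linarith) (by linarith),
      pw, qw]
    left
    constructor
    · unfold Fp; rw [min_eq_right (by linarith)]; ring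
    · unfold Fm; rw [abs_of_pos (by linarith)]
  · -- H H
    obtain ⟨⟨p0, pw⟩, ⟨q0, qw⟩⟩ := case_HH v hd h g1 g2
    rw [alphaX_of_H v hd g1, alphaX_of_H v hd g2, alphaX_of_E v hd p0 pw,
      alphaX_of_E v hd q0 qw]
    left
    constructor
    · unfold Fp; rw [min_eq_right (by linarith)]; ring
    · unfold Fm; simp

end chord

section doubling

variable (v : AddVal K) {a b x y z : K}

lemma w_four (hd : NodeData v a b) : (4 : K) ≠ 0 ∧ v.w 4 = 0 := by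
  have h4 : (4 : K) = 2 * 2 := by norm_num
  rw [h4]
  refine ⟨mul_ne_zero hd.two_ne hd.two_ne, ?_⟩
  rw [v.w_mul hd.two_ne hd.two_ne, hd.w_two]
  norm_num

/-- Doubling formula in terms of the clipped valuation. -/
theorem dbl_alpha (hd : NodeData v a b) (hy : y ≠ 0) (heq : y ^ 2 = x ^ 3 + a * x ^ 2 + b * x)
    (hz : z * (4 * y ^ 2) = (x ^ 2 - b) ^ 2) :
    alphaX v b z = Fp (v.w b) (alphaX v b x) (alphaX v b x) := by
  have hη := hd.w_b
  have hbge : v.ge b (v.w b) := Or.inr le_rfl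
  obtain ⟨h40, h4w⟩ := w_four v hd
  have hx : x ≠ 0 := by
    rintro rfl
    apply hy
    have : y ^ 2 = 0 := by rw [heq]; ring
    exact pow_eq_zero_iff (two_ne_zero) |>.mp this
  have hxx : x ^ 2 ≠ 0 := pow_ne_zero 2 hx
  have wxx : v.w (x ^ 2) = 2 * v.w x := v.w_sq hx
  -- Q
  have hQ : y ^ 2 = x * (x ^ 2 + a * x + b) := by rw [heq]; ring
  have hy2 : y ^ 2 ≠ 0 := pow_ne_zero 2 hy
  have hQ0 : x ^ 2 + a * x + b ≠ 0 := by
    intro h0
    rw [h0, mul_zero] at hQ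
    exact hy2 hQ
  have wy2 : v.w (y ^ 2) = v.w x + v.w (x ^ 2 + a * x + b) := by
    rw [hQ, v.w_mul hx hQ0]
  have hax : a * x ≠ 0 := mul_ne_zero hd.a_ne hx
  have wax : v.w (a * x) = v.w x := by rw [v.w_mul hd.a_ne hx, hd.w_a, zero_add]
  have h4y : (4 : K) * y ^ 2 ≠ 0 := mul_ne_zero h40 hy2
  have w4y : v.w (4 * y ^ 2) = v.w (y ^ 2) := by rw [v.w_mul h40 hy2, h4w, zero_add]
  -- exact transfer
  have zexact : ∀ hN : x ^ 2 - b ≠ 0, z ≠ 0 ∧ v.w z = 2 * v.w (x ^ 2 - b) - v.w (y ^ 2) := by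
    intro hN
    have hz0 : z ≠ 0 := by
      rintro rfl
      rw [zero_mul] at hz
      exact pow_ne_zero 2 hN hz.symm
    refine ⟨hz0, ?_⟩
    have e := congrArg v.w hz
    rw [v.w_mul hz0 h4y, w4y, v.w_sq hN] at e
    linarith
  rcases trichotomy v (b := b) x with ⟨_, e1w⟩ | ⟨_, m1w, m1w'⟩ | g1
  · -- E
    rw [alphaX_of_E v hd hx e1w]
    obtain ⟨hN0, hNw⟩ := v.w_sub_of_lt hxx hbge (by rw [wxx]; linarith)
    obtain ⟨hz0, hzw⟩ := zexact hN0
    have hQge : v.ge (x ^ 2 + a * x + b) (2 * v.w x) :=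
      ((v.ge_of_w wxx.ge).add v (v.ge_of_w (by rw [wax]; linarith))).add v
        (hbge.mono v (by linarith))
    have := hQge.w_le v hQ0
    rw [alphaX_of_E v hd hz0 (by rw [hzw, hNw, wxx, wy2]; linarith)]
    unfold Fp; rw [min_eq_left (by linarith)]; ring
  · -- M
    rw [alphaX_of_M v hx m1w.le m1w'.le]
    have hQw : v.w (x ^ 2 + a * x + b) = v.w x := by
      have h1 : v.ge (x ^ 2) (2 * v.w x) := v.ge_of_w wxx.ge
      obtain ⟨h2, h2w⟩ := v.w_add_of_lt' hax h1 (by rw [wax]; linarith)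
      obtain ⟨_, h3w⟩ := v.w_add_of_lt h2 hbge (by rw [h2w, wax]; exact m1w')
      rw [h3w, h2w, wax]
    rw [hQw] at wy2
    rcases lt_trichotomy (v.w x + v.w x) (v.w b) with hc | hc | hc
    · obtain ⟨hN0, hNw⟩ := v.w_sub_of_lt hxx hbge (by rw [wxx]; linarith)
      obtain ⟨hz0, hzw⟩ := zexact hN0
      rw [alphaX_of_M v hz0 (by rw [hzw, hNw, wxx, wy2]; linarith)
        (by rw [hzw, hNw, wxx, wy2]; linarith), hzw, hNw, wxx, wy2]
      unfold Fp; rw [min_eq_left (by linarith)]; ring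
    · have hN : v.ge (x ^ 2 - b) (v.w b) := (v.ge_of_w (by rw [wxx]; linarith)).sub v hbge
      have hzge : v.ge z (v.w b) := by
        by_cases hN0 : x ^ 2 - b = 0
        · left
          rw [hN0] at hz
          have : z * (4 * y ^ 2) = 0 := by rw [hz]; ring
          rcases mul_eq_zero.mp this with h' | h'
          · exact h'
          · exact absurd h' h4y
        · obtain ⟨hz0, hzw⟩ := zexact hN0
          have := hN.w_le v hN0
          exact Or.inr (by rw [hzw, wy2]; linarith)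
      rw [alphaX_of_H v hd hzge]
      unfold Fp; rw [hc, min_eq_left (by linarith)]
    · obtain ⟨hN0, hNw⟩ := v.w_sub_of_lt' hd.b_ne (v.ge_of_w (le_of_eq wxx.symm)) (by linarith)
      obtain ⟨hz0, hzw⟩ := zexact hN0
      rw [alphaX_of_M v hz0 (by rw [hzw, hNw, wy2]; linarith)
        (by rw [hzw, hNw, wy2]; linarith), hzw, hNw, wy2]
      unfold Fp; rw [min_eq_right (by linarith)]
  · -- H
    rw [alphaX_of_H v hd g1]
    have hxw := g1.w_le v hx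
    obtain ⟨hN0, hNw⟩ := v.w_sub_of_lt' hd.b_ne (v.ge_of_w (le_of_eq wxx.symm)) (by linarith)
    obtain ⟨hz0, hzw⟩ := zexact hN0
    have hQge : v.ge (x ^ 2 + a * x + b) (v.w b) :=
      ((v.ge_of_w (by rw [wxx]; linarith)).add v (v.ge_of_w (by rw [wax]; linarith))).add v hbge
    have := hQge.w_le v hQ0
    rw [alphaX_of_E v hd hz0 (by rw [hzw, hNw, wy2]; linarith)]
    unfold Fp; rw [min_eq_right (by linarith)]; ring

/-- At a `2`-torsion point (`y = 0`) the clipped valuation is `0` or `η`. -/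
theorem Fp_two_torsion (hd : NodeData v a b) (heq : x ^ 3 + a * x ^ 2 + b * x = 0) :
    Fp (v.w b) (alphaX v b x) (alphaX v b x) = 0 := by
  have hη := hd.w_b
  by_cases hx : x = 0
  · subst hx
    rw [alphaX_zero]
    unfold Fp; rw [min_eq_right (by linarith)]; ring
  · have hQ : x ^ 2 + a * x + b = 0 := by
      have : x * (x ^ 2 + a * x + b) = 0 := by rw [← heq]; ring
      rcases mul_eq_zero.mp this with h' | h'
      · exact absurd h' hx
      · exact h'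
    have hsum : x + b / x = -a := by
      field_simp
      linear_combination hQ
    have hprod : x * (b / x) = b := by field_simp
    have hS0 : x + b / x ≠ 0 := by rw [hsum]; exact neg_ne_zero.mpr hd.a_ne
    have hSw : v.w (x + b / x) = 0 := by rw [hsum, v.w_neg, hd.w_a]
    rcases v.roots_split_exact (r := v.w b) hS0 hSw hη (by rw [hprod]; exact hd.b_ne)
        (by rw [hprod]; ring) with ⟨_, a2, _, _⟩ | ⟨_, _, _, a4⟩
    · rw [alphaX_of_E v hd hx a2.le]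
      unfold Fp; rw [min_eq_left (by linarith)]; ring
    · rw [alphaX_of_H v hd (v.ge_of_w a4.ge)]
      unfold Fp; rw [min_eq_right (by linarith)]; ring

end doubling

/-! ### The dihedral relation and the induction -/

/-- `y ≈ z` modulo `x ↦ ± x + 2 k η`. -/
def Rel (η y z : ℝ) : Prop := ∃ k : ℤ, y = z + 2 * k * η ∨ y = -z + 2 * k * η

namespace Rel

variable {η x y z : ℝ}

lemma refl (η x : ℝ) : Rel η x x := ⟨0, Or.inl (by simp)⟩

lemma symm (h : Rel η x y) : Rel η y x := by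
  obtain ⟨k, h | h⟩ := h
  · exact ⟨-k, Or.inl (by push_cast; linarith)⟩
  · exact ⟨k, Or.inr (by linarith)⟩

lemma trans (h₁ : Rel η x y) (h₂ : Rel η y z) : Rel η x z := by
  obtain ⟨k, h₁ | h₁⟩ := h₁ <;> obtain ⟨l, h₂ | h₂⟩ := h₂
  · exact ⟨k + l, Or.inl (by push_cast; linarith)⟩
  · exact ⟨k + l, Or.inr (by push_cast; linarith)⟩
  · exact ⟨k - l, Or.inr (by push_cast; linarith)⟩
  · exact ⟨k - l, Or.inl (by push_cast; linarith)⟩

lemma neg_right (h : Rel η x y) : Rel η x (-y) := by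
  obtain ⟨k, h | h⟩ := h
  · exact ⟨k, Or.inr (by linarith)⟩
  · exact ⟨k, Or.inl (by linarith)⟩

lemma Fp_rel (η a₁ a₂ : ℝ) : Rel η (Fp η a₁ a₂) (a₁ + a₂) := by
  unfold Fp
  rcases min_choice (a₁ + a₂) (2 * η - (a₁ + a₂)) with h | h <;> rw [h]
  · exact refl _ _
  · exact ⟨1, Or.inr (by push_cast; ring)⟩

lemma Fm_rel (η a₁ a₂ : ℝ) : Rel η (Fm a₁ a₂) (a₁ - a₂) := by
  unfold Fm
  rcases abs_choice (a₁ - a₂) with h | h <;> rw [h]
  · exact refl _ _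
  · exact ⟨0, Or.inr (by simp)⟩

end Rel

/-- Abstract induction: a function `f : ℕ → ℝ` (think `f m = α (m P)`) satisfying the
parallelogram law with respect to `f 1` is related to `m * f 1`. -/
theorem rel_of_parallelogram (η : ℝ) (f : ℕ → ℝ) (h0 : f 0 = 0)
    (hPL : ∀ m : ℕ, (f (m + 2) = Fp η (f (m + 1)) (f 1) ∧ f m = Fm (f (m + 1)) (f 1)) ∨
      (f (m + 2) = Fm (f (m + 1)) (f 1) ∧ f m = Fp η (f (m + 1)) (f 1))) :
    ∀ m : ℕ, Rel η (f m) (m * f 1) := by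
  have key : ∀ m : ℕ, Rel η (f m) (m * f 1) ∧ Rel η (f (m + 1)) ((m + 1 : ℕ) * f 1) := by
    intro m
    induction m with
    | zero =>
      refine ⟨by rw [h0]; simp [Rel.refl], by simp [Rel.refl]⟩
    | succ m ih =>
      obtain ⟨ih0, ih1⟩ := ih
      refine ⟨ih1, ?_⟩
      -- relations between `f (m+1) ± f 1` and `(m+1 ± 1) * f 1`
      have hmatch : (Rel η (f (m + 1) + f 1) ((m + 2 : ℕ) * f 1) ∧
            Rel η (f (m + 1) - f 1) (m * f 1)) ∨
          (Rel η (f (m + 1) + f 1) (m * f 1) ∧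
            Rel η (f (m + 1) - f 1) ((m + 2 : ℕ) * f 1)) := by
        obtain ⟨k, hk | hk⟩ := ih1
        · left
          exact ⟨⟨k, Or.inl (by rw [hk]; push_cast; ring)⟩,
            ⟨k, Or.inl (by rw [hk]; push_cast; ring)⟩⟩
        · right
          exact ⟨⟨k, Or.inr (by rw [hk]; push_cast; ring)⟩,
            ⟨k, Or.inr (by rw [hk]; push_cast; ring)⟩⟩
      have hp := Rel.Fp_rel η (f (m + 1)) (f 1)
      have hm := Rel.Fm_rel η (f (m + 1)) (f 1)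
      rcases hPL m with ⟨e2, e0⟩ | ⟨e2, e0⟩
      · -- f (m+2) ≈ f(m+1) + f 1, f m ≈ f (m+1) - f 1
        rw [← e2] at hp
        rw [← e0] at hm
        rcases hmatch with ⟨A, B⟩ | ⟨A, B⟩
        · exact hp.trans A
        · -- f m ≈ (m+2) f1 and f m ≈ m f1
          have h1 : Rel η ((m : ℝ) * f 1) ((m + 2 : ℕ) * f 1) := (ih0.symm.trans hm).trans B
          exact (hp.trans A).trans h1
      · rw [← e2] at hm
        rw [← e0] at hp
        rcases hmatch with ⟨A, B⟩ | ⟨A, B⟩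
        · -- f (m+2) ≈ f(m+1) - f 1 ≈ m f1 ; f m ≈ f(m+1) + f1 ≈ (m+2) f1
          have h1 : Rel η ((m : ℝ) * f 1) ((m + 2 : ℕ) * f 1) := (ih0.symm.trans hp).trans A
          exact (hm.trans B).trans h1
        · exact hm.trans B
  exact fun m => (key m).1

end Fermat.Agent.H71
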