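import Fermat.Agent.H71.FreyTwo
import Fermat.Agent.H12.S13FreyTwo

/-!
# The Frey curve has no rational point of order `p` (S13, step (4) / WP5 (C))

Combination of the component part (`Fermat.Agent.H71.frey_rational_torsion_two`: a rational
`p`-torsion point never reduces to the node at `2`) with the nonsingular part
(`Fermat.Agent.H12.frey_rational_torsion_nonnode`, helper12).
-/

set_option autoImplicit false

open WeierstrassCurve WeierstrassCurve.Affine

namespace Fermat.Agent.H71

/-- **`E(ℚ)[p] = 0` for the Frey curve.** -/
theorem frey_no_rational_torsion (P : FreyPackage) (Q : P.freyCurve.toAffine.Point)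
    (hQ : P.p • Q = 0) : Q = 0 := by
  cases Q with
  | zero => rfl
  | some x y h =>
    obtain ⟨hx, hv⟩ := frey_rational_torsion_two P h hQ
    exact (Fermat.Agent.H12.frey_rational_torsion_nonnode P h hQ hx hv).elim

/-- `zsmul` version. -/
theorem frey_no_rational_torsion_zsmul (P : FreyPackage) (Q : P.freyCurve.toAffine.Point)
    (hQ : (P.p : ℤ) • Q = 0) : Q = 0 :=
  frey_no_rational_torsion P Q (by rw [← natCast_zsmul]; exact hQ)

end Fermat.Agent.H71
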