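import Fermat.Agent.H71.Chord

/-!
# The chord relations for the nodal model `y² + a₁ x y = x³ + a₂ x² + a₄ x`, any residue
characteristic

This is the characteristic-free version of `Fermat.Agent.H71.Chord`: only the quantities
`B = b₂ = a₁² + 4 a₂` (a unit) and `b = a₄` (`w b > 0`) enter, and `2` is only assumed to be
integral (`w 2 ≥ 0`), so the theory applies at the prime `2`.
-/

set_option autoImplicit false

namespace Fermat.Agent.H71

variable {K : Type*} [Field K]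

/-- Valuation data for the nodal model `y² + a₁ x y = x³ + a₂ x² + b x` with `B = a₁² + 4 a₂`. -/
structure GNodeData (v : AddVal K) (B b : K) : Prop where
  two_ge : v.ge 2 0
  B_ne : B ≠ 0
  w_B : v.w B = 0
  b_ne : b ≠ 0
  w_b : 0 < v.w b

/-- The symmetric relations between the `x`-coordinates `x₁, x₂` of two points and the
`x`-coordinates `zp, zm` of their sum and difference. -/
structure GChord (B b x₁ x₂ zp zm : K) : Prop where
  hx : x₁ ≠ x₂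
  hP : zp * zm * (x₁ - x₂) ^ 2 = (x₁ * x₂ - b) ^ 2
  hS : (zp + zm) * (x₁ - x₂) ^ 2 = 2 * ((x₁ + x₂) * (x₁ * x₂ + b)) + B * x₁ * x₂

namespace GChord

variable {B b x₁ x₂ zp zm : K}

lemma symm (h : GChord B b x₁ x₂ zp zm) : GChord B b x₂ x₁ zp zm where
  hx := h.hx.symm
  hP := by linear_combination h.hP
  hS := by linear_combination h.hS

lemma swap (h : GChord B b x₁ x₂ zp zm) : GChord B b x₁ x₂ zm zp where
  hx := h.hx
  hP := by linear_combination h.hP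
  hS := by linear_combination h.hS

lemma hD (h : GChord B b x₁ x₂ zp zm) : x₁ - x₂ ≠ 0 := sub_ne_zero.mpr h.hx

end GChord

namespace AddVal

variable (v : AddVal K)

lemma gsum_exact {S D M : K} (hD : D ≠ 0) (h : S * D ^ 2 = M) (hM : M ≠ 0) :
    S ≠ 0 ∧ v.w S = v.w M - 2 * v.w D := by
  have hS : S ≠ 0 := by
    rintro rfl
    rw [zero_mul] at h
    exact hM h.symm
  refine ⟨hS, ?_⟩
  have e := congrArg v.w h
  rw [v.w_mul hS (pow_ne_zero 2 hD), v.w_sq hD] at e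
  linarith

lemma gsum_ge {S D M : K} {t : ℝ} (hD : D ≠ 0) (h : S * D ^ 2 = M) (hM : v.ge M t) :
    v.ge S (t - 2 * v.w D) := by
  by_cases hM0 : M = 0
  · subst hM0
    left
    rcases mul_eq_zero.mp h with h' | h'
    · exact h'
    · exact absurd h' (pow_ne_zero 2 hD)
  · obtain ⟨_, e⟩ := v.gsum_exact hD h hM0
    have := hM.w_le v hM0
    exact Or.inr (by linarith)

end AddVal

section gcases

variable (v : AddVal K) {B b x₁ x₂ zp zm : K}

/-- valuation of `B * x₁ * x₂`. -/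
lemma w_B_mul (hd : GNodeData v B b) (h1 : x₁ ≠ 0) (h2 : x₂ ≠ 0) :
    B * x₁ * x₂ ≠ 0 ∧ v.w (B * x₁ * x₂) = v.w x₁ + v.w x₂ := by
  have hB1 : B * x₁ ≠ 0 := mul_ne_zero hd.B_ne h1
  refine ⟨mul_ne_zero hB1 h2, ?_⟩
  rw [v.w_mul hB1 h2, v.w_mul hd.B_ne h1, hd.w_B]
  ring

lemma ge_B_mul (hd : GNodeData v B b) {s t : ℝ} (h1 : v.ge x₁ s) (h2 : v.ge x₂ t) :
    v.ge (B * x₁ * x₂) (s + t) := by
  have hB : v.ge B 0 := Or.inr hd.w_B.ge
  have := (hB.mul v h1).mul v h2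
  refine this.mono v (by linarith)

/-- lower bound for `2 * X`. -/
lemma ge_two_mul (hd : GNodeData v B b) {X : K} {t : ℝ} (h : v.ge X t) : v.ge (2 * X) t := by
  have := hd.two_ge.mul v h
  exact this.mono v (by linarith)

/-- Case (E,E): both `x₁, x₂` have valuation `≤ 0`. -/
lemma gcase_EE (hd : GNodeData v B b) (h : GChord B b x₁ x₂ zp zm)
    (h1 : x₁ ≠ 0) (h1w : v.w x₁ ≤ 0) (h2 : x₂ ≠ 0) (h2w : v.w x₂ ≤ 0) :
    (zp ≠ 0 ∧ v.w zp ≤ 0) ∧ (zm ≠ 0 ∧ v.w zm ≤ 0) := by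
  have hD := h.hD
  have h12 : x₁ * x₂ ≠ 0 := mul_ne_zero h1 h2
  have w12 := v.w_mul h1 h2
  have hbge : v.ge b (v.w b) := Or.inr le_rfl
  -- N
  obtain ⟨hN0, hNw⟩ := v.w_sub_of_lt h12 hbge (by rw [w12]; linarith [hd.w_b])
  obtain ⟨hP0, hPw⟩ := v.prod_exact hD h.hP hN0
  -- D
  have hDw : min (v.w x₁) (v.w x₂) ≤ v.w (x₁ - x₂) := by
    have := v.w_add h1 (neg_ne_zero.mpr h2) (by rwa [← sub_eq_add_neg])
    rwa [v.w_neg, ← sub_eq_add_neg] at this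
  -- M
  have hm1 : v.ge (x₁ + x₂) (min (v.w x₁) (v.w x₂)) :=
    (v.ge_of_w (min_le_left _ _)).add v (v.ge_of_w (min_le_right _ _))
  have hm2 : v.ge (x₁ * x₂ + b) (v.w x₁ + v.w x₂) :=
    (v.ge_of_w w12.ge).add v (hbge.mono v (by linarith [hd.w_b]))
  have hm3 : v.ge (B * x₁ * x₂) (v.w x₁ + v.w x₂) :=
    ge_B_mul v hd (v.ge_of_w le_rfl) (v.ge_of_w le_rfl)
  have hmin0 : min (v.w x₁) (v.w x₂) ≤ 0 := (min_le_left _ _).trans h1w
  have hM : v.ge (2 * ((x₁ + x₂) * (x₁ * x₂ + b)) + B * x₁ * x₂)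
      (min (v.w x₁) (v.w x₂) + (v.w x₁ + v.w x₂)) :=
    (ge_two_mul v hd (hm1.mul v hm2)).add v (hm3.mono v (by linarith))
  have hS := v.gsum_ge hD h.hS hM
  have hminge : v.w x₁ + v.w x₂ ≤ min (v.w x₁) (v.w x₂) := le_min (by linarith) (by linarith)
  have hmax : v.w x₁ + v.w x₂ - v.w (x₁ - x₂) ≤ 0 := by
    rcases min_le_iff.mp (le_refl (min (v.w x₁) (v.w x₂))) with hh | hh <;> linarith
  refine v.roots_le_zero (t := v.w x₁ + v.w x₂ - v.w (x₁ - x₂)) hP0 ?_ hmax (hS.mono v ?_)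
  · rw [hPw, hNw, w12]; ring
  · linarith

/-- Case (E,M). -/
lemma gcase_EM (hd : GNodeData v B b) (h : GChord B b x₁ x₂ zp zm)
    (h1 : x₁ ≠ 0) (h1w : v.w x₁ ≤ 0) (h2 : x₂ ≠ 0) (h2w : 0 < v.w x₂) (h2w' : v.w x₂ < v.w b) :
    (zp ≠ 0 ∧ v.w zp = v.w x₂) ∧ (zm ≠ 0 ∧ v.w zm = v.w x₂) := by
  have hD := h.hD
  have h12 : x₁ * x₂ ≠ 0 := mul_ne_zero h1 h2
  have w12 := v.w_mul h1 h2
  have hbge : v.ge b (v.w b) := Or.inr le_rfl
  obtain ⟨hN0, hNw⟩ := v.w_sub_of_lt h12 hbge (by rw [w12]; linarith)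
  obtain ⟨hP0, hPw⟩ := v.prod_exact hD h.hP hN0
  obtain ⟨_, hDw⟩ := v.w_sub_of_lt h1 (v.ge_of_w (le_refl (v.w x₂))) (by linarith)
  have hm1 : v.ge (x₁ + x₂) (v.w x₁) :=
    (v.ge_of_w le_rfl).add v (v.ge_of_w (by linarith))
  have hm2 : v.ge (x₁ * x₂ + b) (v.w x₁ + v.w x₂) :=
    (v.ge_of_w w12.ge).add v (hbge.mono v (by linarith))
  have hm3 : v.ge (B * x₁ * x₂) (v.w x₁ + v.w x₂) :=
    ge_B_mul v hd (v.ge_of_w le_rfl) (v.ge_of_w le_rfl)
  have hM : v.ge (2 * ((x₁ + x₂) * (x₁ * x₂ + b)) + B * x₁ * x₂)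
      (v.w x₁ + (v.w x₁ + v.w x₂)) :=
    (ge_two_mul v hd (hm1.mul v hm2)).add v (hm3.mono v (by linarith))
  have hS := v.gsum_ge hD h.hS hM
  refine v.roots_eq hP0 ?_ (hS.mono v ?_)
  · rw [hPw, hNw, w12, hDw]; ring
  · rw [hDw]; linarith

/-- Case (E,H). -/
lemma gcase_EH (hd : GNodeData v B b) (h : GChord B b x₁ x₂ zp zm)
    (h1 : x₁ ≠ 0) (h1w : v.w x₁ ≤ 0) (h2 : v.ge x₂ (v.w b)) :
    v.ge zp (v.w b) ∧ v.ge zm (v.w b) := by
  have hD := h.hD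
  have hbge : v.ge b (v.w b) := Or.inr le_rfl
  have hη := hd.w_b
  obtain ⟨_, hDw⟩ := v.w_sub_of_lt h1 h2 (by linarith)
  have h12 : v.ge (x₁ * x₂) (v.w x₁ + v.w b) := (v.ge_of_w le_rfl).mul v h2
  have hN : v.ge (x₁ * x₂ - b) (v.w x₁ + v.w b) := h12.sub v (hbge.mono v (by linarith))
  have hP := v.prod_ge hD h.hP hN
  have hm1 : v.ge (x₁ + x₂) (v.w x₁) :=
    (v.ge_of_w le_rfl).add v (h2.mono v (by linarith))
  have hm2 : v.ge (x₁ * x₂ + b) (v.w x₁ + v.w b) := h12.add v (hbge.mono v (by linarith))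
  have hm3 : v.ge (B * x₁ * x₂) (v.w x₁ + v.w b) :=
    ge_B_mul v hd (v.ge_of_w le_rfl) h2
  have hM : v.ge (2 * ((x₁ + x₂) * (x₁ * x₂ + b)) + B * x₁ * x₂)
      (v.w x₁ + (v.w x₁ + v.w b)) :=
    (ge_two_mul v hd (hm1.mul v hm2)).add v (hm3.mono v (by linarith))
  have hS := v.gsum_ge hD h.hS hM
  refine v.roots_ge (hP.mono v ?_) (hS.mono v ?_)
  · rw [hDw]; linarith
  · rw [hDw]; linarith

/-- Case (M,H). -/
lemma gcase_MH (hd : GNodeData v B b) (h : GChord B b x₁ x₂ zp zm)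
    (h1 : x₁ ≠ 0) (h1w : 0 < v.w x₁) (h1w' : v.w x₁ < v.w b) (h2 : v.ge x₂ (v.w b)) :
    (zp ≠ 0 ∧ v.w zp = v.w b - v.w x₁) ∧ (zm ≠ 0 ∧ v.w zm = v.w b - v.w x₁) := by
  have hD := h.hD
  have hbge : v.ge b (v.w b) := Or.inr le_rfl
  have hη := hd.w_b
  obtain ⟨_, hDw⟩ := v.w_sub_of_lt h1 h2 h1w'
  have h12 : v.ge (x₁ * x₂) (v.w x₁ + v.w b) := (v.ge_of_w le_rfl).mul v h2
  obtain ⟨hN0, hNw⟩ := v.w_sub_of_lt' hd.b_ne h12 (by linarith)
  obtain ⟨hP0, hPw⟩ := v.prod_exact hD h.hP hN0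
  have hm1 : v.ge (x₁ + x₂) (v.w x₁) :=
    (v.ge_of_w le_rfl).add v (h2.mono v (by linarith))
  have hm2 : v.ge (x₁ * x₂ + b) (v.w b) := (h12.mono v (by linarith)).add v hbge
  have hm3 : v.ge (B * x₁ * x₂) (v.w x₁ + v.w b) :=
    ge_B_mul v hd (v.ge_of_w le_rfl) h2
  have hM : v.ge (2 * ((x₁ + x₂) * (x₁ * x₂ + b)) + B * x₁ * x₂)
      (v.w x₁ + v.w b) :=
    (ge_two_mul v hd (hm1.mul v hm2)).add v hm3
  have hS := v.gsum_ge hD h.hS hM
  refine v.roots_eq hP0 ?_ (hS.mono v ?_)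
  · rw [hPw, hNw, hDw]; ring
  · rw [hDw]; linarith

/-- Case (H,H). -/
lemma gcase_HH (hd : GNodeData v B b) (h : GChord B b x₁ x₂ zp zm)
    (h1 : v.ge x₁ (v.w b)) (h2 : v.ge x₂ (v.w b)) :
    (zp ≠ 0 ∧ v.w zp ≤ 0) ∧ (zm ≠ 0 ∧ v.w zm ≤ 0) := by
  have hD := h.hD
  have hbge : v.ge b (v.w b) := Or.inr le_rfl
  have hη := hd.w_b
  have hDw : v.w b ≤ v.w (x₁ - x₂) := (h1.sub v h2).w_le v hD
  have h12 : v.ge (x₁ * x₂) (v.w b + v.w b) := h1.mul v h2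
  obtain ⟨hN0, hNw⟩ := v.w_sub_of_lt' hd.b_ne h12 (by linarith)
  obtain ⟨hP0, hPw⟩ := v.prod_exact hD h.hP hN0
  have hm1 : v.ge (x₁ + x₂) (v.w b) := h1.add v h2
  have hm2 : v.ge (x₁ * x₂ + b) (v.w b) := (h12.mono v (by linarith)).add v hbge
  have hm3 : v.ge (B * x₁ * x₂) (v.w b + v.w b) := ge_B_mul v hd h1 h2
  have hM : v.ge (2 * ((x₁ + x₂) * (x₁ * x₂ + b)) + B * x₁ * x₂)
      (v.w b + v.w b) :=
    (ge_two_mul v hd (hm1.mul v hm2)).add v hm3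
  have hS := v.gsum_ge hD h.hS hM
  refine v.roots_le_zero (t := v.w b - v.w (x₁ - x₂)) hP0 ?_ (by linarith) (hS.mono v ?_)
  · rw [hPw, hNw]; ring
  · linarith

end gcases

section galpha

variable (v : AddVal K) {B b : K}

lemma galphaX_of_E (hd : GNodeData v B b) {x : K} (hx : x ≠ 0) (hw : v.w x ≤ 0) :
    alphaX v b x = 0 := by
  rw [alphaX_of_ne v hx]
  have := hd.w_b
  rw [min_eq_left (by linarith), max_eq_left hw]

lemma galphaX_of_H (hd : GNodeData v B b) {x : K} (hx : v.ge x (v.w b)) :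
    alphaX v b x = v.w b := by
  by_cases h0 : x = 0
  · subst h0; exact alphaX_zero v
  · rw [alphaX_of_ne v h0, min_eq_right (hx.w_le v h0), max_eq_right hd.w_b.le]

lemma galphaX_nonneg (hd : GNodeData v B b) (x : K) : 0 ≤ alphaX v b x := by
  by_cases h0 : x = 0
  · subst h0; rw [alphaX_zero]; exact hd.w_b.le
  · rw [alphaX_of_ne v h0]; exact le_max_left _ _

lemma galphaX_le (hd : GNodeData v B b) (x : K) : alphaX v b x ≤ v.w b := by
  by_cases h0 : x = 0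
  · subst h0; rw [alphaX_zero]
  · rw [alphaX_of_ne v h0]; exact max_le hd.w_b.le (min_le_right _ _)

end galpha

section gcasesMM

variable (v : AddVal K) {B b x₁ x₂ zp zm : K}

/-- Case (M,M) with `w x₁ < w x₂`. -/
lemma gcase_MM_lt (hd : GNodeData v B b) (h : GChord B b x₁ x₂ zp zm)
    (h1 : x₁ ≠ 0) (h1w : 0 < v.w x₁) (h2 : x₂ ≠ 0) (h2w' : v.w x₂ < v.w b)
    (hlt : v.w x₁ < v.w x₂) :
    (alphaX v b zp = Fp (v.w b) (v.w x₁) (v.w x₂) ∧ alphaX v b zm = v.w x₂ - v.w x₁) ∨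
    (alphaX v b zp = v.w x₂ - v.w x₁ ∧ alphaX v b zm = Fp (v.w b) (v.w x₁) (v.w x₂)) := by
  have hD := h.hD
  have h12 : x₁ * x₂ ≠ 0 := mul_ne_zero h1 h2
  have w12 := v.w_mul h1 h2
  have hbge : v.ge b (v.w b) := Or.inr le_rfl
  have hη := hd.w_b
  obtain ⟨_, hDw⟩ := v.w_sub_of_lt h1 (v.ge_of_w (le_refl (v.w x₂))) hlt
  -- M
  have hm1 : v.ge (x₁ + x₂) (v.w x₁) :=
    (v.ge_of_w le_rfl).add v (v.ge_of_w hlt.le)
  have hm2 : v.ge (x₁ * x₂ + b) (min (v.w x₁ + v.w x₂) (v.w b)) :=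
    (v.ge_of_w (by rw [w12]; exact min_le_left _ _)).add v (hbge.mono v (min_le_right _ _))
  obtain ⟨hm3, hm3w⟩ := w_B_mul v hd h1 h2
  have hmlt : v.w x₁ + v.w x₂ < v.w x₁ + min (v.w x₁ + v.w x₂) (v.w b) := by
    have : v.w x₂ < min (v.w x₁ + v.w x₂) (v.w b) := lt_min (by linarith) h2w'
    linarith
  obtain ⟨hM0, hMw⟩ := v.w_add_of_lt' hm3 (ge_two_mul v hd (hm1.mul v hm2))
    (by rw [hm3w]; exact hmlt)
  obtain ⟨hS0, hSw⟩ := v.gsum_exact hD h.hS hM0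
  rw [hMw, hm3w, hDw] at hSw
  have hSw' : v.w (zp + zm) = v.w x₂ - v.w x₁ := by rw [hSw]; ring
  -- N
  rcases lt_trichotomy (v.w x₁ + v.w x₂) (v.w b) with hc | hc | hc
  · obtain ⟨hN0, hNw⟩ := v.w_sub_of_lt h12 hbge (by rw [w12]; exact hc)
    obtain ⟨hP0, hPw⟩ := v.prod_exact hD h.hP hN0
    have hFp : Fp (v.w b) (v.w x₁) (v.w x₂) = v.w x₁ + v.w x₂ := by
      unfold Fp; exact min_eq_left (by linarith)
    rw [hFp]
    rcases v.roots_split_exact (r := v.w x₁ + v.w x₂) hS0 hSw' (by linarith) hP0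
        (by rw [hPw, hNw, w12, hDw]; ring) with ⟨a1, a2, a3, a4⟩ | ⟨a1, a2, a3, a4⟩
    · right
      exact ⟨by rw [alphaX_of_M v a1 (by linarith) (by linarith), a2],
        by rw [alphaX_of_M v a3 (by linarith) (by linarith), a4]⟩
    · left
      exact ⟨by rw [alphaX_of_M v a3 (by linarith) (by linarith), a4],
        by rw [alphaX_of_M v a1 (by linarith) (by linarith), a2]⟩
  · -- w x₁ + w x₂ = η
    have hN : v.ge (x₁ * x₂ - b) (v.w b) := (v.ge_of_w (by rw [w12, hc])).sub v hbge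
    have hP := v.prod_ge hD h.hP hN
    have hFp : Fp (v.w b) (v.w x₁) (v.w x₂) = v.w b := by
      unfold Fp; rw [hc]; exact min_eq_left (by linarith)
    rw [hFp]
    rcases v.roots_split (r := v.w b) hS0 hSw' (by linarith)
        (hP.mono v (by rw [hDw]; linarith)) with ⟨a1, a2, a3⟩ | ⟨a1, a2, a3⟩
    · right
      exact ⟨by rw [alphaX_of_M v a1 (by linarith) (by linarith), a2], galphaX_of_H v hd a3⟩
    · left
      exact ⟨galphaX_of_H v hd a3, by rw [alphaX_of_M v a1 (by linarith) (by linarith), a2]⟩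
  · obtain ⟨hN0, hNw⟩ := v.w_sub_of_lt' hd.b_ne (v.ge_of_w (le_of_eq w12.symm)) hc
    obtain ⟨hP0, hPw⟩ := v.prod_exact hD h.hP hN0
    have hFp : Fp (v.w b) (v.w x₁) (v.w x₂) = 2 * v.w b - (v.w x₁ + v.w x₂) := by
      unfold Fp; exact min_eq_right (by linarith)
    rw [hFp]
    rcases v.roots_split_exact (r := 2 * v.w b - (v.w x₁ + v.w x₂)) hS0 hSw' (by linarith) hP0
        (by rw [hPw, hNw, hDw]; ring) with ⟨a1, a2, a3, a4⟩ | ⟨a1, a2, a3, a4⟩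
    · right
      exact ⟨by rw [alphaX_of_M v a1 (by linarith) (by linarith), a2],
        by rw [alphaX_of_M v a3 (by linarith) (by linarith), a4]⟩
    · left
      exact ⟨by rw [alphaX_of_M v a3 (by linarith) (by linarith), a4],
        by rw [alphaX_of_M v a1 (by linarith) (by linarith), a2]⟩

/-- Case (M,M) with `w x₁ = w x₂`. -/
lemma gcase_MM_eq (hd : GNodeData v B b) (h : GChord B b x₁ x₂ zp zm)
    (h1 : x₁ ≠ 0) (h1w : 0 < v.w x₁) (h1w' : v.w x₁ < v.w b) (h2 : x₂ ≠ 0)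
    (heq : v.w x₂ = v.w x₁) :
    (alphaX v b zp = Fp (v.w b) (v.w x₁) (v.w x₁) ∧ alphaX v b zm = 0) ∨
    (alphaX v b zp = 0 ∧ alphaX v b zm = Fp (v.w b) (v.w x₁) (v.w x₁)) := by
  have hD := h.hD
  have h12 : x₁ * x₂ ≠ 0 := mul_ne_zero h1 h2
  have w12 := v.w_mul h1 h2
  rw [heq] at w12
  have hbge : v.ge b (v.w b) := Or.inr le_rfl
  have hη := hd.w_b
  have hDw : v.w x₁ ≤ v.w (x₁ - x₂) :=
    ((v.ge_of_w le_rfl).sub v (v.ge_of_w heq.ge)).w_le v hD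
  -- M
  have hm1 : v.ge (x₁ + x₂) (v.w x₁) :=
    (v.ge_of_w le_rfl).add v (v.ge_of_w heq.ge)
  have hm2 : v.ge (x₁ * x₂ + b) (min (v.w x₁ + v.w x₁) (v.w b)) :=
    (v.ge_of_w (by rw [w12]; exact min_le_left _ _)).add v (hbge.mono v (min_le_right _ _))
  obtain ⟨hm3, hm3w⟩ := w_B_mul v hd h1 h2
  rw [heq] at hm3w
  have hmlt : v.w x₁ + v.w x₁ < v.w x₁ + min (v.w x₁ + v.w x₁) (v.w b) := by
    have : v.w x₁ < min (v.w x₁ + v.w x₁) (v.w b) := lt_min (by linarith) h1w'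
    linarith
  obtain ⟨hM0, hMw⟩ := v.w_add_of_lt' hm3 (ge_two_mul v hd (hm1.mul v hm2))
    (by rw [hm3w]; exact hmlt)
  obtain ⟨hS0, hSw⟩ := v.gsum_exact hD h.hS hM0
  rw [hMw, hm3w] at hSw
  have hSw' : v.w (zp + zm) = 2 * v.w x₁ - 2 * v.w (x₁ - x₂) := by rw [hSw]; ring
  rcases lt_trichotomy (v.w x₁ + v.w x₁) (v.w b) with hc | hc | hc
  · obtain ⟨hN0, hNw⟩ := v.w_sub_of_lt h12 hbge (by rw [w12]; exact hc)
    obtain ⟨hP0, hPw⟩ := v.prod_exact hD h.hP hN0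
    have hFp : Fp (v.w b) (v.w x₁) (v.w x₁) = v.w x₁ + v.w x₁ := by
      unfold Fp; exact min_eq_left (by linarith)
    rw [hFp]
    rcases v.roots_split_exact (r := v.w x₁ + v.w x₁) hS0 hSw' (by linarith) hP0
        (by rw [hPw, hNw, w12]; ring) with ⟨a1, a2, a3, a4⟩ | ⟨a1, a2, a3, a4⟩
    · right
      exact ⟨galphaX_of_E v hd a1 (by linarith),
        by rw [alphaX_of_M v a3 (by linarith) (by linarith), a4]⟩
    · left
      exact ⟨by rw [alphaX_of_M v a3 (by linarith) (by linarith), a4],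
        galphaX_of_E v hd a1 (by linarith)⟩
  · have hN : v.ge (x₁ * x₂ - b) (v.w b) := (v.ge_of_w (by rw [w12, hc])).sub v hbge
    have hP := v.prod_ge hD h.hP hN
    have hFp : Fp (v.w b) (v.w x₁) (v.w x₁) = v.w b := by
      unfold Fp; rw [hc]; exact min_eq_left (by linarith)
    rw [hFp]
    rcases v.roots_split (r := v.w b) hS0 hSw' (by linarith)
        (hP.mono v (by linarith)) with ⟨a1, a2, a3⟩ | ⟨a1, a2, a3⟩
    · right
      exact ⟨galphaX_of_E v hd a1 (by linarith), galphaX_of_H v hd a3⟩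
    · left
      exact ⟨galphaX_of_H v hd a3, galphaX_of_E v hd a1 (by linarith)⟩
  · obtain ⟨hN0, hNw⟩ := v.w_sub_of_lt' hd.b_ne (v.ge_of_w (le_of_eq w12.symm)) hc
    obtain ⟨hP0, hPw⟩ := v.prod_exact hD h.hP hN0
    have hFp : Fp (v.w b) (v.w x₁) (v.w x₁) = 2 * v.w b - (v.w x₁ + v.w x₁) := by
      unfold Fp; exact min_eq_right (by linarith)
    rw [hFp]
    rcases v.roots_split_exact (r := 2 * v.w b - (v.w x₁ + v.w x₁)) hS0 hSw' (by linarith) hP0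
        (by rw [hPw, hNw]; ring) with ⟨a1, a2, a3, a4⟩ | ⟨a1, a2, a3, a4⟩
    · right
      exact ⟨galphaX_of_E v hd a1 (by linarith),
        by rw [alphaX_of_M v a3 (by linarith) (by linarith), a4]⟩
    · left
      exact ⟨by rw [alphaX_of_M v a3 (by linarith) (by linarith), a4],
        galphaX_of_E v hd a1 (by linarith)⟩

end gcasesMM

section gchord

variable (v : AddVal K) {B b x₁ x₂ zp zm : K}

/-- The parallelogram law for a generic chord, in terms of the clipped valuation. -/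
theorem gchord_alpha (hd : GNodeData v B b) (h : GChord B b x₁ x₂ zp zm) :
    (alphaX v b zp = Fp (v.w b) (alphaX v b x₁) (alphaX v b x₂) ∧
      alphaX v b zm = Fm (alphaX v b x₁) (alphaX v b x₂)) ∨
    (alphaX v b zp = Fm (alphaX v b x₁) (alphaX v b x₂) ∧
      alphaX v b zm = Fp (v.w b) (alphaX v b x₁) (alphaX v b x₂)) := by
  have hη := hd.w_b
  rcases trichotomy v (b := b) x₁ with ⟨e1, e1w⟩ | ⟨m1, m1w, m1w'⟩ | g1 <;>
  rcases trichotomy v (b := b) x₂ with ⟨e2, e2w⟩ | ⟨m2, m2w, m2w'⟩ | g2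
  · -- E E
    obtain ⟨⟨p0, pw⟩, ⟨q0, qw⟩⟩ := gcase_EE v hd h e1 e1w e2 e2w
    rw [galphaX_of_E v hd e1 e1w, galphaX_of_E v hd e2 e2w, galphaX_of_E v hd p0 pw,
      galphaX_of_E v hd q0 qw]
    left
    constructor
    · unfold Fp; rw [min_eq_left (by linarith)]; ring
    · unfold Fm; simp
  · -- E M
    obtain ⟨⟨p0, pw⟩, ⟨q0, qw⟩⟩ := gcase_EM v hd h e1 e1w m2 m2w m2w'
    rw [galphaX_of_E v hd e1 e1w, alphaX_of_M v m2 m2w.le m2w'.le,
      alphaX_of_M v p0 (by linarith) (by linarith), alphaX_of_M v q0 (by linarith) (by linarith),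
      pw, qw]
    left
    constructor
    · unfold Fp; rw [min_eq_left (by linarith)]; ring
    · unfold Fm; rw [zero_sub, abs_neg, abs_of_pos m2w]
  · -- E H
    obtain ⟨p, q⟩ := gcase_EH v hd h e1 e1w g2
    rw [galphaX_of_E v hd e1 e1w, galphaX_of_H v hd g2, galphaX_of_H v hd p,
      galphaX_of_H v hd q]
    left
    constructor
    · unfold Fp; rw [min_eq_left (by linarith)]; ring
    · unfold Fm; rw [zero_sub, abs_neg, abs_of_pos hη]
  · -- M E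
    obtain ⟨⟨p0, pw⟩, ⟨q0, qw⟩⟩ := gcase_EM v hd h.symm e2 e2w m1 m1w m1w'
    rw [galphaX_of_E v hd e2 e2w, alphaX_of_M v m1 m1w.le m1w'.le,
      alphaX_of_M v p0 (by linarith) (by linarith), alphaX_of_M v q0 (by linarith) (by linarith),
      pw, qw]
    left
    constructor
    · unfold Fp; rw [min_eq_left (by linarith)]; ring
    · unfold Fm; rw [sub_zero, abs_of_pos m1w]
  · -- M M
    rw [alphaX_of_M v m1 m1w.le m1w'.le, alphaX_of_M v m2 m2w.le m2w'.le]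
    rcases lt_trichotomy (v.w x₁) (v.w x₂) with hc | hc | hc
    · have hFm : Fm (v.w x₁) (v.w x₂) = v.w x₂ - v.w x₁ := by
        unfold Fm; rw [abs_sub_comm, abs_of_pos (by linarith)]
      rw [hFm]
      exact gcase_MM_lt v hd h m1 m1w m2 m2w' hc
    · have hFm : Fm (v.w x₁) (v.w x₂) = 0 := by
        unfold Fm; rw [hc, sub_self, abs_zero]
      rw [hFm, ← hc]
      exact gcase_MM_eq v hd h m1 m1w m1w' m2 hc.symm
    · have hFm : Fm (v.w x₁) (v.w x₂) = v.w x₁ - v.w x₂ := by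
        unfold Fm; rw [abs_of_pos (by linarith)]
      rw [hFm, Fp_comm]
      exact gcase_MM_lt v hd h.symm m2 m2w m1 m1w' hc
  · -- M H
    obtain ⟨⟨p0, pw⟩, ⟨q0, qw⟩⟩ := gcase_MH v hd h m1 m1w m1w' g2
    rw [alphaX_of_M v m1 m1w.le m1w'.le, galphaX_of_H v hd g2,
      alphaX_of_M v p0 (by linarith) (by linarith), alphaX_of_M v q0 (by linarith) (by linarith),
      pw, qw]
    left
    constructor
    · unfold Fp; rw [min_eq_right (by linarith)]; ring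
    · unfold Fm; rw [abs_sub_comm, abs_of_pos (by linarith)]
  · -- H E
    obtain ⟨p, q⟩ := gcase_EH v hd h.symm e2 e2w g1
    rw [galphaX_of_E v hd e2 e2w, galphaX_of_H v hd g1, galphaX_of_H v hd p,
      galphaX_of_H v hd q]
    left
    constructor
    · unfold Fp; rw [min_eq_left (by linarith)]; ring
    · unfold Fm; rw [sub_zero, abs_of_pos hη]
  · -- H M
    obtain ⟨⟨p0, pw⟩, ⟨q0, qw⟩⟩ := gcase_MH v hd h.symm m2 m2w m2w' g1
    rw [alphaX_of_M v m2 m2w.le m2w'.le, galphaX_of_H v hd g1,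
      alphaX_of_M v p0 (by linarith) (by linarith), alphaX_of_M v q0 (by linarith) (by linarith),
      pw, qw]
    left
    constructor
    · unfold Fp; rw [min_eq_right (by linarith)]; ring
    · unfold Fm; rw [abs_of_pos (by linarith)]
  · -- H H
    obtain ⟨⟨p0, pw⟩, ⟨q0, qw⟩⟩ := gcase_HH v hd h g1 g2
    rw [galphaX_of_H v hd g1, galphaX_of_H v hd g2, galphaX_of_E v hd p0 pw,
      galphaX_of_E v hd q0 qw]
    left
    constructor
    · unfold Fp; rw [min_eq_right (by linarith)]; ring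
    · unfold Fm; simp

end gchord

end Fermat.Agent.H71
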