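import Fermat.Agent.H71.GDouble
import Fermat.Agent.H71.Component
import Fermat.Agent.H70.AddSub

/-!
# Component theory for the nodal model `y² + a₁ x y = x³ + a₂ x² + a₄ x`, any residue
characteristic

Characteristic-free version of `Fermat.Agent.H71.Component`: for a Weierstrass curve with
`a₃ = a₆ = 0`, `w b₂ = 0`, `w a₄ > 0` and `w 2 ≥ 0`, the clipped valuation
`alpha P = clip (w (x P)) 0 (w a₄)` satisfies the parallelogram law; hence `n • P = 0` implies
`n * alpha P ∈ 2 (w a₄) ℤ`.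
-/

set_option autoImplicit false
set_option linter.unusedSectionVars false

open WeierstrassCurve WeierstrassCurve.Affine

namespace Fermat.Agent.H71

variable {K : Type*} [Field K] [DecidableEq K]

/-- The curve has the nodal shape `y² + a₁ x y = x³ + a₂ x² + a₄ x`. -/
structure IsNodal (W : WeierstrassCurve K) : Prop where
  a₃ : W.a₃ = 0
  a₆ : W.a₆ = 0

namespace IsNodal

variable {W : WeierstrassCurve K} (hW : IsNodal W)

include hW

lemma b₄_eq : W.b₄ = 2 * W.a₄ := by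
  simp [WeierstrassCurve.b₄, hW.a₃]

lemma b₆_eq : W.b₆ = 0 := by
  simp [WeierstrassCurve.b₆, hW.a₃, hW.a₆]

lemma b₈_eq : W.b₈ = -W.a₄ ^ 2 := by
  simp [WeierstrassCurve.b₈, hW.a₃, hW.a₆]

lemma dblDen_eq (x : K) :
    Fermat.Agent.H38.dblDen W x = x * (4 * x ^ 2 + W.b₂ * x + 4 * W.a₄) := by
  simp only [Fermat.Agent.H38.dblDen, hW.b₄_eq, hW.b₆_eq]
  ring

lemma dblNum_eq (x : K) : Fermat.Agent.H38.dblNum W x = (x ^ 2 - W.a₄) ^ 2 := by
  simp only [Fermat.Agent.H38.dblNum, hW.b₄_eq, hW.b₆_eq, hW.b₈_eq]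
  ring

/-- Generic chord: `x₁ ≠ x₂`. -/
lemma add_sub_of_X_ne {x₁ y₁ x₂ y₂ : K} (h₁ : W.toAffine.Nonsingular x₁ y₁)
    (h₂ : W.toAffine.Nonsingular x₂ y₂) (hx : x₁ ≠ x₂) :
    ∃ (zp yp : K) (hp : W.toAffine.Nonsingular zp yp) (zm ym : K)
      (hm : W.toAffine.Nonsingular zm ym),
      Point.some x₁ y₁ h₁ + Point.some x₂ y₂ h₂ = Point.some zp yp hp ∧
      Point.some x₁ y₁ h₁ - Point.some x₂ y₂ h₂ = Point.some zm ym hm ∧
      GChord W.b₂ W.a₄ x₁ x₂ zp zm := by
  have hadd := Point.add_of_X_ne (h₁ := h₁) (h₂ := h₂) hx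
  have hn : W.toAffine.Nonsingular x₂ (W.toAffine.negY x₂ y₂) :=
    (WeierstrassCurve.Affine.nonsingular_neg ..).mpr h₂
  have hsub : Point.some x₁ y₁ h₁ - Point.some x₂ y₂ h₂ =
      Point.some x₁ y₁ h₁ + Point.some x₂ _ hn := by
    rw [sub_eq_add_neg, Point.neg_some]
  have hsub2 := Point.add_of_X_ne (h₁ := h₁) (h₂ := hn) hx
  have hsub' := hsub.trans hsub2
  refine ⟨_, _, _, _, _, _, hadd, hsub', hx, ?_, ?_⟩
  · have := Fermat.Agent.H70.some_add_some_prod W (Ne.symm hx) hadd hsub'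
    rw [hW.b₄_eq, hW.b₆_eq, hW.b₈_eq] at this
    linear_combination this
  · have := Fermat.Agent.H70.some_add_some_sum W (Ne.symm hx) hadd hsub'
    rw [hW.b₄_eq, hW.b₆_eq] at this
    linear_combination this

/-- Doubling a point which is not `2`-torsion. -/
lemma add_self_of_Y_ne {x y : K} (h : W.toAffine.Nonsingular x y)
    (hy : y ≠ W.toAffine.negY x y) :
    ∃ (z yz : K) (hz : W.toAffine.Nonsingular z yz),
      Point.some x y h + Point.some x y h = Point.some z yz hz ∧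
      x * (4 * x ^ 2 + W.b₂ * x + 4 * W.a₄) ≠ 0 ∧
      z * (x * (4 * x ^ 2 + W.b₂ * x + 4 * W.a₄)) = (x ^ 2 - W.a₄) ^ 2 := by
  refine ⟨_, _, _, Point.add_self_of_Y_ne hy, ?_, ?_⟩
  · rw [← hW.dblDen_eq]
    exact fun h0 => hy ((Fermat.Agent.H38.dblDen_eq_zero_iff W h.1).1 h0)
  · rw [← hW.dblDen_eq, ← hW.dblNum_eq]
    exact Fermat.Agent.H38.addX_self_mul_dblDen W h.1 hy

/-- A `2`-torsion point. -/
lemma add_self_of_Y_eq {x y : K} (h : W.toAffine.Nonsingular x y)
    (hy : y = W.toAffine.negY x y) :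
    Point.some x y h + Point.some x y h = 0 ∧
      x * (4 * x ^ 2 + W.b₂ * x + 4 * W.a₄) = 0 := by
  refine ⟨Point.add_self_of_Y_eq hy, ?_⟩
  rw [← hW.dblDen_eq]
  exact (Fermat.Agent.H38.dblDen_eq_zero_iff W h.1).2 hy

end IsNodal

section

variable {v : AddVal K} {W : WeierstrassCurve K}

lemma galpha_nonneg (hd : GNodeData v W.b₂ W.a₄) (P : W.toAffine.Point) : 0 ≤ alpha v W P := by
  cases P with
  | zero => exact le_rfl
  | some x y h => exact galphaX_nonneg v hd x

lemma galpha_le (hd : GNodeData v W.b₂ W.a₄) (P : W.toAffine.Point) :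
    alpha v W P ≤ v.w W.a₄ := by
  cases P with
  | zero => exact hd.w_b.le
  | some x y h => exact galphaX_le v hd x

/-- Doubling. -/
theorem galpha_double (hW : IsNodal W) (hd : GNodeData v W.b₂ W.a₄) (P : W.toAffine.Point) :
    alpha v W (P + P) = Fp (v.w W.a₄) (alpha v W P) (alpha v W P) := by
  by_cases hP : P = 0
  · subst hP
    rw [add_zero, alpha_zero]
    unfold Fp; rw [add_zero, min_eq_left (by linarith [hd.w_b])]
  cases P with
  | zero => exact absurd rfl hP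
  | some x y h =>
    by_cases hy : y = W.toAffine.negY x y
    · obtain ⟨h0, hΨ⟩ := hW.add_self_of_Y_eq h hy
      rw [h0, alpha_zero, alpha_some]
      exact (gFp_two_torsion v hd hΨ).symm
    · obtain ⟨z, yz, hz, hadd, hΨ, hzz⟩ := hW.add_self_of_Y_ne h hy
      rw [hadd, alpha_some, alpha_some]
      exact gdbl_alpha v hd hΨ hzz

/-- The parallelogram law. -/
theorem galpha_add_sub (hW : IsNodal W) (hd : GNodeData v W.b₂ W.a₄) (P Q : W.toAffine.Point) :
    (alpha v W (P + Q) = Fp (v.w W.a₄) (alpha v W P) (alpha v W Q) ∧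
      alpha v W (P - Q) = Fm (alpha v W P) (alpha v W Q)) ∨
    (alpha v W (P + Q) = Fm (alpha v W P) (alpha v W Q) ∧
      alpha v W (P - Q) = Fp (v.w W.a₄) (alpha v W P) (alpha v W Q)) := by
  by_cases hP : P = 0
  · subst hP
    left
    rw [zero_add, zero_sub, alpha_neg, alpha_zero, Fp_zero_left (galpha_le hd Q),
      Fm_zero_left (galpha_nonneg hd Q)]
    exact ⟨rfl, rfl⟩
  by_cases hQ : Q = 0
  · subst hQ
    left
    rw [add_zero, sub_zero, alpha_zero, Fp_zero_right (galpha_le hd P),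
      Fm_zero_right (galpha_nonneg hd P)]
    exact ⟨rfl, rfl⟩
  by_cases hPQ : P = Q
  · subst hPQ
    left
    rw [sub_self, alpha_zero, Fm_self]
    exact ⟨galpha_double hW hd P, rfl⟩
  by_cases hPQ' : P = -Q
  · subst hPQ'
    right
    rw [neg_add_cancel, alpha_zero, alpha_neg, Fm_self]
    refine ⟨rfl, ?_⟩
    have : -Q - Q = -(Q + Q) := by abel
    rw [this, alpha_neg]
    exact galpha_double hW hd Q
  cases P with
  | zero => exact absurd rfl hP
  | some x₁ y₁ h₁ =>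
    cases Q with
    | zero => exact absurd rfl hQ
    | some x₂ y₂ h₂ =>
      have hx : x₁ ≠ x₂ := by
        intro hx
        rcases IsShort.eq_or_eq_neg_of_X_eq h₁ h₂ hx with h | h
        · exact hPQ h
        · exact hPQ' h
      obtain ⟨zp, yp, hp, zm, ym, hm, hadd, hsub, hch⟩ := hW.add_sub_of_X_ne h₁ h₂ hx
      rw [hadd, hsub]
      simp only [alpha_some]
      exact gchord_alpha v hd hch

/-- `α (m • P) ≈ m * α P`. -/
theorem galpha_nsmul_rel (hW : IsNodal W) (hd : GNodeData v W.b₂ W.a₄) (P : W.toAffine.Point)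
    (m : ℕ) : Rel (v.w W.a₄) (alpha v W (m • P)) (m * alpha v W P) := by
  have h := rel_of_parallelogram (v.w W.a₄) (fun m => alpha v W (m • P))
    (by simp) (by
      intro m
      have := galpha_add_sub hW hd ((m + 1) • P) P
      have e1 : (m + 1) • P + P = (m + 2) • P := (succ_nsmul P (m + 1)).symm
      have e2 : (m + 1) • P - P = m • P := by rw [succ_nsmul, add_sub_cancel_right]
      rw [e1, e2] at this
      simpa using this) m
  simpa using h

/-- If `n • P = 0` then `n * α P ∈ 2 η ℤ`. -/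
theorem galpha_torsion (hW : IsNodal W) (hd : GNodeData v W.b₂ W.a₄) (P : W.toAffine.Point)
    {n : ℕ} (hP : n • P = 0) : ∃ k : ℤ, (n : ℝ) * alpha v W P = 2 * k * v.w W.a₄ := by
  have h := galpha_nsmul_rel hW hd P n
  rw [hP, alpha_zero] at h
  obtain ⟨k, hk | hk⟩ := h
  · exact ⟨-k, by push_cast; linarith⟩
  · exact ⟨k, by linarith⟩

/-- **Main theorem (component valuation), any residue characteristic.** Let `P = (x, y)` be a
point of odd order `n` on the nodal model `y² + a₁ x y = x³ + a₂ x² + a₄ x` (`w b₂ = 0`,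
`w 2 ≥ 0`, `η = w a₄ > 0`) which reduces to the node (`x = 0` or `w x > 0`). Then `x ≠ 0`,
`0 < w x < η` and `n * w x ∈ 2 η ℤ`. -/
theorem gtorsion_node (hW : IsNodal W) (hd : GNodeData v W.b₂ W.a₄) {x y : K}
    (h : W.toAffine.Nonsingular x y) {n : ℕ} (hn : Odd n) (hP : n • Point.some x y h = 0)
    (hx : x = 0 ∨ 0 < v.w x) :
    x ≠ 0 ∧ 0 < v.w x ∧ v.w x < v.w W.a₄ ∧ ∃ k : ℤ, (n : ℝ) * v.w x = 2 * k * v.w W.a₄ := by
  obtain ⟨k, hk⟩ := galpha_torsion hW hd _ hP
  rw [alpha_some] at hk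
  have hη := hd.w_b
  rcases trichotomy v (b := W.a₄) x with ⟨e1, e1w⟩ | ⟨m1, m1w, m1w'⟩ | g1
  · rcases hx with hx | hx
    · exact absurd hx e1
    · linarith
  · rw [alphaX_of_M v m1 m1w.le m1w'.le] at hk
    exact ⟨m1, m1w, m1w', k, hk⟩
  · exfalso
    rw [galphaX_of_H v hd g1] at hk
    have h1 : ((n : ℝ) - 2 * k) * v.w W.a₄ = 0 := by linarith
    rcases mul_eq_zero.mp h1 with h2 | h2
    · have h3 : ((n : ℤ) : ℝ) = ((2 * k : ℤ) : ℝ) := by push_cast; linarith
      have h4 : (n : ℤ) = 2 * k := by exact_mod_cast h3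
      have h5 : Odd (n : ℤ) := by exact_mod_cast hn
      rw [h4] at h5
      exact (Int.not_odd_iff_even.mpr (even_two_mul k)) h5
    · linarith

end

end Fermat.Agent.H71
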