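import Fermat.Agent.H71.GChord

/-!
# Doubling for the nodal model, any residue characteristic

`x(2P) * Ψ(x) = (x² - b)²` with `Ψ(x) = x (4 x² + B x + 4 b) = (2 y + a₁ x)²`.
-/

set_option autoImplicit false

namespace Fermat.Agent.H71

variable {K : Type*} [Field K]

section gdoubling

variable (v : AddVal K) {B b x z : K}

lemma ge_four (hd : GNodeData v B b) : v.ge (4 : K) 0 := by
  have h4 : (4 : K) = 2 * 2 := by norm_num
  rw [h4]
  exact (hd.two_ge.mul v hd.two_ge).mono v (by linarith)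

lemma ge_four_mul (hd : GNodeData v B b) {X : K} {t : ℝ} (h : v.ge X t) : v.ge (4 * X) t :=
  ((ge_four v hd).mul v h).mono v (by linarith)

/-- In the middle region the quadratic factor `4 x² + B x + 4 b` has the valuation of `x`. -/
lemma w_quad_of_M (hd : GNodeData v B b) (hx : x ≠ 0) (h0 : 0 < v.w x) (h1 : v.w x < v.w b) :
    4 * x ^ 2 + B * x + 4 * b ≠ 0 ∧ v.w (4 * x ^ 2 + B * x + 4 * b) = v.w x := by
  have hbge : v.ge b (v.w b) := Or.inr le_rfl
  have wxx : v.w (x ^ 2) = 2 * v.w x := v.w_sq hx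
  have hBx : B * x ≠ 0 := mul_ne_zero hd.B_ne hx
  have wBx : v.w (B * x) = v.w x := by rw [v.w_mul hd.B_ne hx, hd.w_B, zero_add]
  have g1 : v.ge (4 * x ^ 2) (2 * v.w x) := ge_four_mul v hd (v.ge_of_w wxx.ge)
  obtain ⟨h2, h2w⟩ := v.w_add_of_lt' hBx g1 (by rw [wBx]; linarith)
  obtain ⟨h3, h3w⟩ := v.w_add_of_lt h2 (ge_four_mul v hd hbge) (by rw [h2w, wBx]; exact h1)
  exact ⟨h3, by rw [h3w, h2w, wBx]⟩

/-- Doubling formula in terms of the clipped valuation. -/
theorem gdbl_alpha (hd : GNodeData v B b) (hΨ : x * (4 * x ^ 2 + B * x + 4 * b) ≠ 0)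
    (hz : z * (x * (4 * x ^ 2 + B * x + 4 * b)) = (x ^ 2 - b) ^ 2) :
    alphaX v b z = Fp (v.w b) (alphaX v b x) (alphaX v b x) := by
  have hη := hd.w_b
  have hbge : v.ge b (v.w b) := Or.inr le_rfl
  have hx : x ≠ 0 := left_ne_zero_of_mul hΨ
  have hQ0 : 4 * x ^ 2 + B * x + 4 * b ≠ 0 := right_ne_zero_of_mul hΨ
  have hxx : x ^ 2 ≠ 0 := pow_ne_zero 2 hx
  have wxx : v.w (x ^ 2) = 2 * v.w x := v.w_sq hx
  have wΨ : v.w (x * (4 * x ^ 2 + B * x + 4 * b)) = v.w x + v.w (4 * x ^ 2 + B * x + 4 * b) :=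
    v.w_mul hx hQ0
  have hBx : B * x ≠ 0 := mul_ne_zero hd.B_ne hx
  have wBx : v.w (B * x) = v.w x := by rw [v.w_mul hd.B_ne hx, hd.w_B, zero_add]
  -- exact transfer
  have zexact : ∀ hN : x ^ 2 - b ≠ 0,
      z ≠ 0 ∧ v.w z = 2 * v.w (x ^ 2 - b) - v.w (x * (4 * x ^ 2 + B * x + 4 * b)) := by
    intro hN
    have hz0 : z ≠ 0 := by
      rintro rfl
      rw [zero_mul] at hz
      exact pow_ne_zero 2 hN hz.symm
    refine ⟨hz0, ?_⟩
    have e := congrArg v.w hz
    rw [v.w_mul hz0 hΨ, v.w_sq hN] at e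
    linarith
  rcases trichotomy v (b := b) x with ⟨_, e1w⟩ | ⟨_, m1w, m1w'⟩ | g1
  · -- E
    rw [galphaX_of_E v hd hx e1w]
    obtain ⟨hN0, hNw⟩ := v.w_sub_of_lt hxx hbge (by rw [wxx]; linarith)
    obtain ⟨hz0, hzw⟩ := zexact hN0
    have hQge : v.ge (4 * x ^ 2 + B * x + 4 * b) (2 * v.w x) :=
      ((ge_four_mul v hd (v.ge_of_w wxx.ge)).add v (v.ge_of_w (by rw [wBx]; linarith))).add v
        (ge_four_mul v hd (hbge.mono v (by linarith)))
    have := hQge.w_le v hQ0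
    rw [galphaX_of_E v hd hz0 (by rw [hzw, hNw, wxx, wΨ]; linarith)]
    unfold Fp; rw [min_eq_left (by linarith)]; ring
  · -- M
    rw [alphaX_of_M v hx m1w.le m1w'.le]
    obtain ⟨_, hQw⟩ := w_quad_of_M v hd hx m1w m1w'
    rw [hQw] at wΨ
    rcases lt_trichotomy (v.w x + v.w x) (v.w b) with hc | hc | hc
    · obtain ⟨hN0, hNw⟩ := v.w_sub_of_lt hxx hbge (by rw [wxx]; linarith)
      obtain ⟨hz0, hzw⟩ := zexact hN0
      rw [alphaX_of_M v hz0 (by rw [hzw, hNw, wxx, wΨ]; linarith)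
        (by rw [hzw, hNw, wxx, wΨ]; linarith), hzw, hNw, wxx, wΨ]
      unfold Fp; rw [min_eq_left (by linarith)]; ring
    · have hN : v.ge (x ^ 2 - b) (v.w b) := (v.ge_of_w (by rw [wxx]; linarith)).sub v hbge
      have hzge : v.ge z (v.w b) := by
        by_cases hN0 : x ^ 2 - b = 0
        · left
          rw [hN0] at hz
          have : z * (x * (4 * x ^ 2 + B * x + 4 * b)) = 0 := by rw [hz]; ring
          rcases mul_eq_zero.mp this with h' | h'
          · exact h'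
          · exact absurd h' hΨ
        · obtain ⟨hz0, hzw⟩ := zexact hN0
          have := hN.w_le v hN0
          exact Or.inr (by rw [hzw, wΨ]; linarith)
      rw [galphaX_of_H v hd hzge]
      unfold Fp; rw [hc, min_eq_left (by linarith)]
    · obtain ⟨hN0, hNw⟩ := v.w_sub_of_lt' hd.b_ne (v.ge_of_w (le_of_eq wxx.symm)) (by linarith)
      obtain ⟨hz0, hzw⟩ := zexact hN0
      rw [alphaX_of_M v hz0 (by rw [hzw, hNw, wΨ]; linarith)
        (by rw [hzw, hNw, wΨ]; linarith), hzw, hNw, wΨ]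
      unfold Fp; rw [min_eq_right (by linarith)]
  · -- H
    rw [galphaX_of_H v hd g1]
    have hxw := g1.w_le v hx
    obtain ⟨hN0, hNw⟩ := v.w_sub_of_lt' hd.b_ne (v.ge_of_w (le_of_eq wxx.symm)) (by linarith)
    obtain ⟨hz0, hzw⟩ := zexact hN0
    have hQge : v.ge (4 * x ^ 2 + B * x + 4 * b) (v.w b) :=
      ((ge_four_mul v hd (v.ge_of_w (by rw [wxx]; linarith))).add v
        (v.ge_of_w (by rw [wBx]; linarith))).add v (ge_four_mul v hd hbge)
    have := hQge.w_le v hQ0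
    rw [galphaX_of_E v hd hz0 (by rw [hzw, hNw, wΨ]; linarith)]
    unfold Fp; rw [min_eq_right (by linarith)]; ring

/-- At a `2`-torsion point the clipped valuation is `0` or `η`. -/
theorem gFp_two_torsion (hd : GNodeData v B b) (heq : x * (4 * x ^ 2 + B * x + 4 * b) = 0) :
    Fp (v.w b) (alphaX v b x) (alphaX v b x) = 0 := by
  have hη := hd.w_b
  rcases trichotomy v (b := b) x with ⟨e1, e1w⟩ | ⟨m1, m1w, m1w'⟩ | g1
  · rw [galphaX_of_E v hd e1 e1w]
    unfold Fp; rw [min_eq_left (by linarith)]; ring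
  · exfalso
    obtain ⟨hQ0, _⟩ := w_quad_of_M v hd m1 m1w m1w'
    exact mul_ne_zero m1 hQ0 heq
  · rw [galphaX_of_H v hd g1]
    unfold Fp; rw [min_eq_right (by linarith)]; ring

end gdoubling

end Fermat.Agent.H71
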