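import Fermat.Agent.H71.Bridge
import Fermat.Agent.H71.Component
import Fermat.Agent.H4.Leg

/-!
# Valuations of torsion points reducing to the node (multiplicative form)

For a valuation subring `A` of a field `L` of characteristic zero, algebraic over `ℤ` (e.g.
`AlgebraicClosure ℚ`, see `isAlgebraic_int_algebraicClosure`), lying over a prime `q`, and the
short model `y² = x³ + a x² + b x` with `|2| = |a| = 1`, `0 < |b| < 1`, we show that a point
`(x, y)` killed by `p` with `|x| < 1` satisfies `|x| ^ p = |b| ^ (2 k)` for some integer `k`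
(and `|b| < |x|` when `p` is odd).
-/

set_option autoImplicit false

open WeierstrassCurve WeierstrassCurve.Affine

namespace Fermat.Agent.H71

variable {L : Type*} [Field L]

section dictionary

variable (A : ValuationSubring L) (w : AddVal L)
  (hle : ∀ x y : L, x ≠ 0 → y ≠ 0 → (w.w x ≤ w.w y ↔ A.valuation y ≤ A.valuation x))

include hle

lemma dict_lt {x y : L} (hx : x ≠ 0) (hy : y ≠ 0) :
    w.w x < w.w y ↔ A.valuation y < A.valuation x := by
  rw [← not_le, ← not_le, hle y x hy hx]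

lemma dict_eq {x y : L} (hx : x ≠ 0) (hy : y ≠ 0) :
    w.w x = w.w y ↔ A.valuation x = A.valuation y := by
  rw [le_antisymm_iff, le_antisymm_iff, hle x y hx hy, hle y x hy hx, and_comm]

lemma dict_pos {x : L} (hx : x ≠ 0) : 0 < w.w x ↔ A.valuation x < 1 := by
  have := dict_lt A w hle (one_ne_zero (α := L)) hx
  rwa [w.w_one, map_one] at this

lemma dict_zero {x : L} (hx : x ≠ 0) : w.w x = 0 ↔ A.valuation x = 1 := by
  have := dict_eq A w hle hx (one_ne_zero (α := L))
  rwa [w.w_one, map_one] at this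

omit hle in
lemma ne_zero_of_val_eq_one {x : L} (hx : A.valuation x = 1) : x ≠ 0 := by
  rintro rfl
  rw [map_zero] at hx
  exact zero_ne_one hx

lemma dict_nodeData [CharZero L] {a b : L} (h2 : A.valuation (2 : L) = 1)
    (ha : A.valuation a = 1) (hb : A.valuation b < 1) (hb0 : b ≠ 0) : NodeData w a b where
  two_ne := two_ne_zero
  w_two := (dict_zero A w hle two_ne_zero).2 h2
  a_ne := ne_zero_of_val_eq_one A ha
  w_a := (dict_zero A w hle (ne_zero_of_val_eq_one A ha)).2 ha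
  b_ne := hb0
  w_b := (dict_pos A w hle hb0).2 hb

/-- `n * w x = m * w b` translates to `|x| ^ n = |b| ^ m`. -/
lemma dict_pow_zpow {x b : L} (hx : x ≠ 0) (hb : b ≠ 0) {n : ℕ} {m : ℤ}
    (h : (n : ℝ) * w.w x = m * w.w b) : A.valuation x ^ n = A.valuation b ^ m := by
  have h1 : w.w (x ^ n) = w.w (b ^ m) := by
    rw [w.w_pow hx, w.w_zpow hb]; exact h
  have h2 := (dict_eq A w hle (pow_ne_zero n hx) (zpow_ne_zero m hb)).1 h1
  rwa [map_pow, map_zpow₀] at h2

end dictionary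

variable [DecidableEq L] [CharZero L] [Algebra.IsAlgebraic ℤ L]

/-- **Node valuation, multiplicative form (any `p`).** If `(x, y)` is killed by `p` and
`|b| < |x| < 1` then `|x| ^ p = |b| ^ (2 k)` for some integer `k`. -/
theorem node_val_of_mem (A : ValuationSubring L) {q : ℕ} (hqp : q.Prime)
    (hq : A.valuation (q : L) < 1) {W : WeierstrassCurve L}
    (h₁ : W.a₁ = 0) (h₃ : W.a₃ = 0) (h₆ : W.a₆ = 0)
    (h2 : A.valuation (2 : L) = 1) (ha : A.valuation W.a₂ = 1) (hb : A.valuation W.a₄ < 1)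
    (hb0 : W.a₄ ≠ 0) {p : ℕ} {x y : L} (h : W.toAffine.Nonsingular x y)
    (hx1 : A.valuation W.a₄ < A.valuation x) (hx2 : A.valuation x < 1)
    (hP : p • Point.some x y h = 0) :
    ∃ k : ℤ, A.valuation x ^ p = A.valuation W.a₄ ^ (2 * k) := by
  obtain ⟨w, hle⟩ := exists_addVal A hqp hq
  have hd : NodeData w W.a₂ W.a₄ := dict_nodeData A w hle h2 ha hb hb0
  have hW : IsShort W := ⟨h₁, h₃, h₆⟩
  have hx0 : x ≠ 0 := by
    rintro rfl
    rw [map_zero] at hx1
    exact not_lt_zero hx1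
  obtain ⟨k, hk⟩ := alpha_torsion hW hd _ hP
  rw [alpha_some, alphaX_of_M w hx0 ((dict_pos A w hle hx0).2 hx2).le
    ((dict_lt A w hle hx0 hb0).2 hx1).le] at hk
  refine ⟨k, dict_pow_zpow A w hle hx0 hb0 ?_⟩
  push_cast
  exact hk

/-- **Node valuation, multiplicative form (odd `p`).** If `(x, y)` is killed by the odd number
`p` and `|x| < 1` then `|b| < |x|` and `|x| ^ p = |b| ^ (2 k)` for some integer `k`. -/
theorem node_val (A : ValuationSubring L) {q : ℕ} (hqp : q.Prime)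
    (hq : A.valuation (q : L) < 1) {W : WeierstrassCurve L}
    (h₁ : W.a₁ = 0) (h₃ : W.a₃ = 0) (h₆ : W.a₆ = 0)
    (h2 : A.valuation (2 : L) = 1) (ha : A.valuation W.a₂ = 1) (hb : A.valuation W.a₄ < 1)
    (hb0 : W.a₄ ≠ 0) {p : ℕ} (hp : Odd p) {x y : L} (h : W.toAffine.Nonsingular x y)
    (hx : A.valuation x < 1) (hP : p • Point.some x y h = 0) :
    A.valuation W.a₄ < A.valuation x ∧
      ∃ k : ℤ, A.valuation x ^ p = A.valuation W.a₄ ^ (2 * k) := by
  obtain ⟨w, hle⟩ := exists_addVal A hqp hq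
  have hd : NodeData w W.a₂ W.a₄ := dict_nodeData A w hle h2 ha hb hb0
  have hW : IsShort W := ⟨h₁, h₃, h₆⟩
  have hx' : x = 0 ∨ 0 < w.w x := by
    by_cases hx0 : x = 0
    · exact Or.inl hx0
    · exact Or.inr ((dict_pos A w hle hx0).2 hx)
  obtain ⟨hx0, -, hlt, k, hk⟩ := torsion_node hW hd h hp hP hx'
  refine ⟨(dict_lt A w hle hx0 hb0).1 hlt, k, dict_pow_zpow A w hle hx0 hb0 ?_⟩
  push_cast
  exact hk

/-- Variant of `node_val` when `|b| = |t| ^ p`: then `|x| = |t ^ k|` for some integer `k`. -/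
theorem node_val_zpow (A : ValuationSubring L) {q : ℕ} (hqp : q.Prime)
    (hq : A.valuation (q : L) < 1) {W : WeierstrassCurve L}
    (h₁ : W.a₁ = 0) (h₃ : W.a₃ = 0) (h₆ : W.a₆ = 0)
    (h2 : A.valuation (2 : L) = 1) (ha : A.valuation W.a₂ = 1) (hb : A.valuation W.a₄ < 1)
    (hb0 : W.a₄ ≠ 0) {p : ℕ} (hp : Odd p) {x y : L} (h : W.toAffine.Nonsingular x y)
    (hx : A.valuation x < 1) (hP : p • Point.some x y h = 0)
    {t : L} (ht : A.valuation W.a₄ = A.valuation t ^ p) :
    A.valuation W.a₄ < A.valuation x ∧ ∃ k : ℤ, A.valuation x = A.valuation (t ^ k) := by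
  obtain ⟨w, hle⟩ := exists_addVal A hqp hq
  have hd : NodeData w W.a₂ W.a₄ := dict_nodeData A w hle h2 ha hb hb0
  have hW : IsShort W := ⟨h₁, h₃, h₆⟩
  have hp0 : p ≠ 0 := by
    rintro rfl
    exact Nat.not_odd_zero hp
  have ht0 : t ≠ 0 := by
    rintro rfl
    rw [map_zero, zero_pow hp0, map_eq_zero] at ht
    exact hb0 ht
  have hx' : x = 0 ∨ 0 < w.w x := by
    by_cases hx0 : x = 0
    · exact Or.inl hx0
    · exact Or.inr ((dict_pos A w hle hx0).2 hx)
  have hwb : w.w W.a₄ = p * w.w t := by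
    rw [← w.w_pow ht0]
    refine (dict_eq A w hle hb0 (pow_ne_zero p ht0)).2 ?_
    rw [map_pow]; exact ht
  obtain ⟨hx0, -, hlt, k, hk⟩ := torsion_node_zpow hW hd h hp hP hx' ht0 hwb
  exact ⟨(dict_lt A w hle hx0 hb0).1 hlt, k,
    (dict_eq A w hle hx0 (zpow_ne_zero k ht0)).1 hk⟩

/-- **F3 for the Legendre model `y² = x (x - ε) (x - e)`**, in the shape consumed by the `H4`
assembly: if `|2| = |e| = 1`, `0 < |ε| < 1` and `(x, y)` is killed by `p` with
`|ε| < |x| < 1`, then `|x| ^ p = |ε| ^ (2 j)` for some integer `j`. -/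
theorem leg_torsion_val (A : ValuationSubring L) {q : ℕ} (hqp : q.Prime)
    (hq : A.valuation (q : L) < 1) {W : WeierstrassCurve.Affine L} {ε e : L}
    (hW : Fermat.Agent.H4.IsLeg W ε e) (hv2 : A.valuation (2 : L) = 1)
    (he : A.valuation e = 1) (hε1 : A.valuation ε < 1) (hε0 : ε ≠ 0) {p : ℕ} {x y : L}
    (h : W.Nonsingular x y) (hx1 : A.valuation ε < A.valuation x) (hx2 : A.valuation x < 1)
    (hP : p • WeierstrassCurve.Affine.Point.some x y h = 0) :
    ∃ j : ℤ, A.valuation x ^ p = A.valuation ε ^ (2 * j) := by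
  have he0 : e ≠ 0 := ne_zero_of_val_eq_one A he
  have hb : A.valuation W.a₄ = A.valuation ε := by
    rw [hW.a₄, map_mul, he, mul_one]
  have ha : A.valuation W.a₂ = 1 := by
    rw [hW.a₂, Valuation.map_neg, add_comm, ← he]
    exact Valuation.map_add_eq_of_lt_left _ (by rw [he]; exact hε1)
  have hb0 : W.a₄ ≠ 0 := by rw [hW.a₄]; exact mul_ne_zero hε0 he0
  obtain ⟨k, hk⟩ := node_val_of_mem A hqp hq (W := W) hW.a₁ hW.a₃ hW.a₆ hv2 ha
    (by rw [hb]; exact hε1) hb0 h (by rw [hb]; exact hx1) hx2 hP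
  exact ⟨k, by rw [hk, hb]⟩

end Fermat.Agent.H71
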