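import Fermat.Agent.H71.NodeVal
import Mathlib.FieldTheory.IsAlgClosed.AlgebraicClosure
import Fermat.Prelude.Def_FLTPrelim_Ramification

/-!
# Node valuation over `AlgebraicClosure ℚ`

Specialisations of `Fermat.Agent.H71.NodeVal` to `L = AlgebraicClosure ℚ` and a valuation subring
`A` with `A.LiesOverPrime q`.
-/

set_option autoImplicit false

open WeierstrassCurve WeierstrassCurve.Affine

namespace Fermat.Agent.H71

/-- `AlgebraicClosure ℚ` is algebraic over `ℤ` (w.r.t. the canonical `ℤ`-algebra structure). -/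
theorem isAlgebraic_int_algebraicClosure :
    @Algebra.IsAlgebraic ℤ (AlgebraicClosure ℚ) _ _ (Ring.toIntAlgebra _) :=
  @isAlgebraic_int_of_isAlgebraic_rat (AlgebraicClosure ℚ) _
    (AlgebraicClosure.instAlgebra ℚ) (AlgebraicClosure.isAlgebraic ℚ)

/-- a valuation subring of `AlgebraicClosure ℚ` over a prime has rank one: its valuation is
equivalent to a real-valued additive valuation. -/
theorem exists_addVal_qbar (A : ValuationSubring (AlgebraicClosure ℚ)) {q : ℕ} (hqp : q.Prime)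
    (hA : A.LiesOverPrime q) :
    ∃ w : AddVal (AlgebraicClosure ℚ), ∀ x y : AlgebraicClosure ℚ, x ≠ 0 → y ≠ 0 →
      (w.w x ≤ w.w y ↔ A.valuation y ≤ A.valuation x) := by
  have := isAlgebraic_int_algebraicClosure
  exact exists_addVal A hqp ((ValuationSubring.mem_nonunits_iff A).1 hA)

variable [DecidableEq (AlgebraicClosure ℚ)]

/-- **F3 (component statement), Legendre model, over `AlgebraicClosure ℚ`.** -/
theorem leg_torsion_val_qbar (A : ValuationSubring (AlgebraicClosure ℚ)) {q : ℕ}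
    (hqp : q.Prime) (hA : A.LiesOverPrime q)
    {W : WeierstrassCurve.Affine (AlgebraicClosure ℚ)} {ε e : AlgebraicClosure ℚ}
    (hW : Fermat.Agent.H4.IsLeg W ε e) (hv2 : A.valuation (2 : AlgebraicClosure ℚ) = 1)
    (he : A.valuation e = 1) (hε1 : A.valuation ε < 1) (hε0 : ε ≠ 0) {p : ℕ}
    {x y : AlgebraicClosure ℚ} (h : W.Nonsingular x y)
    (hx1 : A.valuation ε < A.valuation x) (hx2 : A.valuation x < 1)
    (hP : p • WeierstrassCurve.Affine.Point.some x y h = 0) :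
    ∃ j : ℤ, A.valuation x ^ p = A.valuation ε ^ (2 * j) := by
  have := isAlgebraic_int_algebraicClosure
  exact leg_torsion_val A hqp ((ValuationSubring.mem_nonunits_iff A).1 hA) hW hv2 he hε1 hε0 h
    hx1 hx2 hP

/-- **Node valuation over `AlgebraicClosure ℚ`**, odd `p`. -/
theorem node_val_qbar (A : ValuationSubring (AlgebraicClosure ℚ)) {q : ℕ}
    (hqp : q.Prime) (hA : A.LiesOverPrime q) {W : WeierstrassCurve (AlgebraicClosure ℚ)}
    (h₁ : W.a₁ = 0) (h₃ : W.a₃ = 0) (h₆ : W.a₆ = 0)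
    (h2 : A.valuation (2 : AlgebraicClosure ℚ) = 1) (ha : A.valuation W.a₂ = 1)
    (hb : A.valuation W.a₄ < 1) (hb0 : W.a₄ ≠ 0) {p : ℕ} (hp : Odd p)
    {x y : AlgebraicClosure ℚ} (h : W.toAffine.Nonsingular x y)
    (hx : A.valuation x < 1) (hP : p • Point.some x y h = 0) :
    A.valuation W.a₄ < A.valuation x ∧
      ∃ k : ℤ, A.valuation x ^ p = A.valuation W.a₄ ^ (2 * k) := by
  have := isAlgebraic_int_algebraicClosure
  exact node_val A hqp ((ValuationSubring.mem_nonunits_iff A).1 hA) h₁ h₃ h₆ h2 ha hb hb0 hp h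
    hx hP

/-- **Node case of `Fermat.Agent.H8.inertia_fixes_torsion_short`** for a short model
`W' : y² = x³ + a x² + b x` over `ℚ` with `|a| = 1`, `0 < |b| = |t| ^ p < 1`, `t ∈ ℚ`: every
`p`-torsion point `(x, y)` over `AlgebraicClosure ℚ` with `|x| < 1` has `|b| < |x| = |s|` for
some `s ∈ ℚ`. -/
theorem node_case_qbar (A : ValuationSubring (AlgebraicClosure ℚ)) {q : ℕ}
    (hqp : q.Prime) (hA : A.LiesOverPrime q) (W' : Affine ℚ)
    (h₁ : W'.a₁ = 0) (h₃ : W'.a₃ = 0) (h₆ : W'.a₆ = 0)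
    (h2 : (2 : AlgebraicClosure ℚ) ∉ A.nonunits)
    (ha : algebraMap ℚ (AlgebraicClosure ℚ) W'.a₂ ∈ A)
    (ha' : algebraMap ℚ (AlgebraicClosure ℚ) W'.a₂ ∉ A.nonunits)
    (hb : algebraMap ℚ (AlgebraicClosure ℚ) W'.a₄ ∈ A.nonunits) (hb0 : W'.a₄ ≠ 0)
    {p : ℕ} (hp : Odd p) (t : ℚ)
    (ht : A.valuation (algebraMap ℚ (AlgebraicClosure ℚ) W'.a₄) =
      A.valuation (algebraMap ℚ (AlgebraicClosure ℚ) t) ^ p)
    (x y : AlgebraicClosure ℚ) (h : (W'⁄(AlgebraicClosure ℚ)).Nonsingular x y)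
    (hx : x ∈ A.nonunits)
    (hP : (p : ℤ) • (Point.some x y h : (W'⁄(AlgebraicClosure ℚ)).Point) = 0) :
    ∃ s : ℚ, A.valuation (algebraMap ℚ (AlgebraicClosure ℚ) s) = A.valuation x ∧
      A.valuation (algebraMap ℚ (AlgebraicClosure ℚ) W'.a₄) < A.valuation x := by
  have := isAlgebraic_int_algebraicClosure
  have e₁ : (W'⁄(AlgebraicClosure ℚ)).a₁ = 0 := by
    show algebraMap ℚ (AlgebraicClosure ℚ) W'.a₁ = 0
    rw [h₁, map_zero]
  have e₃ : (W'⁄(AlgebraicClosure ℚ)).a₃ = 0 := by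
    show algebraMap ℚ (AlgebraicClosure ℚ) W'.a₃ = 0
    rw [h₃, map_zero]
  have e₆ : (W'⁄(AlgebraicClosure ℚ)).a₆ = 0 := by
    show algebraMap ℚ (AlgebraicClosure ℚ) W'.a₆ = 0
    rw [h₆, map_zero]
  have e₂ : (W'⁄(AlgebraicClosure ℚ)).a₂ = algebraMap ℚ (AlgebraicClosure ℚ) W'.a₂ := rfl
  have e₄ : (W'⁄(AlgebraicClosure ℚ)).a₄ = algebraMap ℚ (AlgebraicClosure ℚ) W'.a₄ := rfl
  have h2A : (2 : AlgebraicClosure ℚ) ∈ A := by
    have : (2 : AlgebraicClosure ℚ) = ((2 : ℕ) : AlgebraicClosure ℚ) := by norm_num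
    rw [this]; exact natCast_mem A 2
  have hv2 : A.valuation (2 : AlgebraicClosure ℚ) = 1 :=
    le_antisymm ((A.valuation_le_one_iff _).2 h2A)
      (not_lt.1 fun hlt => h2 ((ValuationSubring.mem_nonunits_iff A).2 hlt))
  have hva : A.valuation (W'⁄(AlgebraicClosure ℚ)).a₂ = 1 := by
    rw [e₂]
    exact le_antisymm ((A.valuation_le_one_iff _).2 ha)
      (not_lt.1 fun hlt => ha' ((ValuationSubring.mem_nonunits_iff A).2 hlt))
  have hvb : A.valuation (W'⁄(AlgebraicClosure ℚ)).a₄ < 1 := by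
    rw [e₄]; exact (ValuationSubring.mem_nonunits_iff A).1 hb
  have hb0' : (W'⁄(AlgebraicClosure ℚ)).a₄ ≠ 0 := by
    rw [e₄, Ne, map_eq_zero]; exact hb0
  have hP' : p • (Point.some x y h : (W'⁄(AlgebraicClosure ℚ)).Point) = 0 := by
    rw [← natCast_zsmul]; exact hP
  obtain ⟨hlt, k, hk⟩ := node_val_zpow A hqp ((ValuationSubring.mem_nonunits_iff A).1 hA)
    (W := (W'⁄(AlgebraicClosure ℚ))) e₁ e₃ e₆ hv2 hva hvb hb0' hp h
    ((ValuationSubring.mem_nonunits_iff A).1 hx) hP' (t := algebraMap ℚ (AlgebraicClosure ℚ) t)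
    (by rw [e₄]; exact ht)
  refine ⟨t ^ k, ?_, ?_⟩
  · rw [map_zpow₀]; exact hk.symm
  · rw [← e₄]; exact hlt

end Fermat.Agent.H71
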